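/-
S56 / block LOC (sub-architect helper295) : definitions.

ABSTRACT CORE (`G` a group with a level system `𝓝`, `I` a normal subgroup, `G/I` topologically
generated by `φ`); shared with block ORD.
* `LurA 𝓝 I A`       : the classes of `H^1(G, A)` represented by a cocycle vanishing on `I`
                       ("unramified classes");
* `IsDenseGen 𝓝 I φ` : `φ` generates `G` modulo `I`, topologically;
* `IsTame 𝓝 I p I₁ τ₀` : every smooth homomorphism from `I` to a group killed by `p` kills `I₁`,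
                       and `I = ⋃ τ₀ ^ j I₁`  ("the maximal abelian quotient of exponent `p` of `I`
                       is cyclic, generated by `τ₀`").
CONCRETE: `Lur q M ≤ H^1_q(M)`.
Only definitions.
-/
import Fermat.Agent.S56.Defs
import Fermat.Agent.S55.Arith.LocInterface

set_option autoImplicit false

namespace Fermat.Agent.S56.Loc

open Fermat.Agent.S55

section abs

variable {G : Type} [Group G] (𝓝 : LevelSys G) (I : Subgroup G)

/-- The zero cocycle. -/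
def zeroCoc (A : Type) [AddCommGroup A] [DistribMulAction G A] : Coc 𝓝 A where
  toFun _ := 0
  map_mul' g h := by rw [smul_zero, add_zero]
  level' := by
    obtain ⟨N, hN⟩ := 𝓝.nonempty
    exact ⟨N, hN, fun _ _ _ => rfl⟩

theorem zeroCoc_cls (A : Type) [AddCommGroup A] [DistribMulAction G A] :
    (zeroCoc 𝓝 A).cls = 0 :=
  (Coc.cls_eq_zero_iff _).2 ⟨0, fun g => by rw [smul_zero, sub_zero]; rfl⟩

/-- The classes represented by a cocycle which vanishes on `I`. -/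
def LurA (A : Type) [AddCommGroup A] [DistribMulAction G A] : AddSubgroup (Hsm 𝓝 A 1) where
  carrier := {x | ∃ c : Coc 𝓝 A, c.cls = x ∧ ∀ τ ∈ I, c τ = 0}
  zero_mem' := ⟨zeroCoc 𝓝 A, zeroCoc_cls 𝓝 A, fun _ _ => rfl⟩
  add_mem' := by
    rintro _ _ ⟨c, rfl, hc⟩ ⟨c', rfl, hc'⟩
    refine ⟨c.add c', Coc.cls_add c c', fun τ hτ => ?_⟩
    change c τ + c' τ = 0
    rw [hc τ hτ, hc' τ hτ, add_zero]
  neg_mem' := by
    rintro _ ⟨c, rfl, hc⟩
    refine ⟨c.neg, Coc.cls_neg c, fun τ hτ => ?_⟩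
    change - c τ = 0
    rw [hc τ hτ, neg_zero]

variable {𝓝 I} in
theorem mem_LurA {A : Type} [AddCommGroup A] [DistribMulAction G A] {x : Hsm 𝓝 A 1} :
    x ∈ LurA 𝓝 I A ↔ ∃ c : Coc 𝓝 A, c.cls = x ∧ ∀ τ ∈ I, c τ = 0 := Iff.rfl

/-- `φ` generates `G` modulo `I`, topologically. -/
def IsDenseGen (φ : G) : Prop :=
  ∀ N ∈ 𝓝.carrier, ∀ g : G, ∃ i : ℕ, ∃ τ ∈ I, ∃ ν ∈ N, g = φ ^ i * τ * ν

/-- `f : G → W` is, on `I`, a smooth homomorphism. -/
def IsSmoothHomOn {W : Type} [AddCommGroup W] (f : G → W) : Prop :=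
  (∀ σ ∈ I, ∀ τ ∈ I, f (σ * τ) = f σ + f τ) ∧ ∃ N ∈ 𝓝.carrier, ∀ n ∈ N, n ∈ I → f n = 0

/-- Tameness of `I` with respect to `p`. -/
structure IsTame (p : ℕ) (I₁ : Subgroup G) (τ₀ : G) : Prop where
  le : I₁ ≤ I
  mem : τ₀ ∈ I
  gen : ∀ σ ∈ I, ∃ j : ℕ, ∃ σ₁ ∈ I₁, σ = τ₀ ^ j * σ₁
  kill : ∀ (W : Type) [AddCommGroup W] (f : G → W), (∀ w : W, p • w = 0) →
    IsSmoothHomOn 𝓝 I f → ∀ σ ∈ I₁, f σ = 0

end abs

/-- The unramified classes of `H^1_q(M)`. -/
noncomputable def Lur (q : Nat.Primes) (M : Type) [AddCommGroup M] [DistribMulAction GQ M] :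
    AddSubgroup (Hloc q M 1) :=
  LurA (lvlLoc q) (inertiaLoc q) (ResMod (ιv q) M)

end Fermat.Agent.S56.Loc
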