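/-
S56 / block LOC (sub-architect helper295), task S56-LOC-A1 (owner helper68): unramified `H^1` of a
group `G` with a normal subgroup `I` such that `G / I` is topologically generated by `φ`:
`#H^1_ur ≤ #H^0`.
-/
import Fermat.Agent.S56.Loc.Defs

set_option autoImplicit false

namespace Fermat.Agent.S56.Loc

open Fermat.Agent.S55

variable {G : Type} [Group G] {𝓝 : LevelSys G} {I : Subgroup G} {A : Type} [AddCommGroup A]
  [DistribMulAction G A]

/-- A cocycle vanishing on the normal subgroup `I` has values in `A^I`. -/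
theorem coc_smul_eq (hI : I.Normal) (c : Coc 𝓝 A) (hc : ∀ τ ∈ I, c τ = 0) (g : G) {τ : G}
    (hτ : τ ∈ I) : τ • c g = c g := by
  have h1 : c (τ * g) = τ • c g := by rw [c.map_mul, hc τ hτ, zero_add]
  have hmem : g⁻¹ * τ * g ∈ I := by
    have := hI.conj_mem τ hτ g⁻¹
    rwa [inv_inv] at this
  have h2 : c (g * (g⁻¹ * τ * g)) = c g := by rw [c.map_mul, hc _ hmem, smul_zero, add_zero]
  have h3 : g * (g⁻¹ * τ * g) = τ * g := by group
  rw [← h1, ← h3, h2]

theorem absUr_coc_pow (c : Coc 𝓝 A) {φ : G} (h : c φ = 0) (i : ℕ) : c (φ ^ i) = 0 := by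
  induction i with
  | zero => rw [pow_zero, c.map_one]
  | succ i ih => rw [pow_succ, c.map_mul, ih, h, smul_zero, add_zero]

/-- A cocycle vanishing on `I` and at `φ` vanishes. -/
theorem coc_eq_zero {φ : G} (hφ : IsDenseGen 𝓝 I φ) (c : Coc 𝓝 A) (hc : ∀ τ ∈ I, c τ = 0)
    (h : c φ = 0) (g : G) : c g = 0 := by
  obtain ⟨N, hN, hlev⟩ := c.level
  obtain ⟨i, τ, hτ, ν, hν, rfl⟩ := hφ N hN g
  rw [hlev _ ν hν, c.map_mul, absUr_coc_pow c h, hc τ hτ, smul_zero, add_zero]

theorem absUr_pow_smul {φ : G} {a : A} (h : φ • a = a) (i : ℕ) : φ ^ i • a = a := by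
  induction i with
  | zero => rw [pow_zero, one_smul]
  | succ i ih => rw [pow_succ, mul_smul, h, ih]

/-- An element fixed by `I` and by `φ` is fixed by `G`. -/
theorem smul_eq_of_dense [Smooth 𝓝 A] {φ : G} (hφ : IsDenseGen 𝓝 I φ) {a : A}
    (h1 : ∀ τ ∈ I, τ • a = a) (h2 : φ • a = a) (g : G) : g • a = a := by
  obtain ⟨N, hN, hfix⟩ := Smooth.exists_fix (𝓝 := 𝓝) a
  obtain ⟨i, τ, hτ, ν, hν, rfl⟩ := hφ N hN g
  rw [mul_smul, mul_smul, hfix ν hν, h1 τ hτ, absUr_pow_smul h2]

/-- For an endomorphism of a finite abelian group, kernel and cokernel have the same order. -/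
theorem card_quot_range_eq_card_ker {B : Type} [AddCommGroup B] [Finite B] (f : B →+ B) :
    Nat.card (B ⧸ f.range) = Nat.card f.ker := by
  have h1 : Nat.card B = Nat.card (B ⧸ f.range) * Nat.card f.range :=
    AddSubgroup.card_eq_card_quotient_mul_card_addSubgroup f.range
  have h2 : Nat.card B = Nat.card (B ⧸ f.ker) * Nat.card f.ker :=
    AddSubgroup.card_eq_card_quotient_mul_card_addSubgroup f.ker
  have h3 : Nat.card (B ⧸ f.ker) = Nat.card f.range :=
    Nat.card_congr (QuotientAddGroup.quotientKerEquivRange f).toEquiv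
  have hpos : 0 < Nat.card f.range := Nat.card_pos
  rw [h3, mul_comm] at h2
  rw [h2] at h1
  exact (Nat.eq_of_mul_eq_mul_right hpos h1).symm

/-- The coboundary of `a`. -/
def absUr_cob (𝓝 : LevelSys G) [Smooth 𝓝 A] (a : A) : Coc 𝓝 A where
  toFun g := g • a - a
  map_mul' g h := by rw [mul_smul, smul_sub]; abel
  level' := by
    obtain ⟨N, hN, hfix⟩ := Smooth.exists_fix (𝓝 := 𝓝) a
    exact ⟨N, hN, fun g n hn => by rw [mul_smul, hfix n hn]⟩

/-- The invariants of `I`. -/
def absUr_inv (I : Subgroup G) (A : Type) [AddCommGroup A] [DistribMulAction G A] :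
    AddSubgroup A where
  carrier := {a | ∀ τ ∈ I, τ • a = a}
  zero_mem' τ _ := smul_zero τ
  add_mem' ha hb τ hτ := by rw [smul_add, ha τ hτ, hb τ hτ]
  neg_mem' ha τ hτ := by rw [smul_neg, ha τ hτ]

theorem absUr_smul_mem (hI : I.Normal) (φ : G) {a : A} (ha : a ∈ absUr_inv I A) :
    φ • a ∈ absUr_inv I A := by
  intro τ hτ
  have hmem : φ⁻¹ * τ * φ ∈ I := by
    have := hI.conj_mem τ hτ φ⁻¹
    rwa [inv_inv] at this
  have h3 : τ * φ = φ * (φ⁻¹ * τ * φ) := by group
  rw [← mul_smul, h3, mul_smul, ha _ hmem]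

/-- `φ - 1` on the invariants of `I`. -/
def absUr_f (hI : I.Normal) (φ : G) : absUr_inv I A →+ absUr_inv I A where
  toFun a := ⟨φ • (a : A) - a, sub_mem (absUr_smul_mem hI φ a.2) a.2⟩
  map_zero' := by
    apply Subtype.ext
    change φ • (0 : A) - 0 = 0
    rw [smul_zero, sub_zero]
  map_add' a b := by
    apply Subtype.ext
    change φ • ((a : A) + b) - ((a : A) + b) = (φ • (a : A) - a) + (φ • (b : A) - b)
    rw [smul_add]
    abel

/-- **(U2), abstract form**: `#H^1_ur ≤ #H^0`. -/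
theorem card_LurA_le [Finite A] [Smooth 𝓝 A] (hI : I.Normal) {φ : G} (hφ : IsDenseGen 𝓝 I φ) :
    Finite (LurA 𝓝 I A) ∧ Nat.card (LurA 𝓝 I A) ≤ Nat.card (Hsm 𝓝 A 0) := by
  classical
  choose c hcls hc using fun x : LurA 𝓝 I A => x.2
  let f : absUr_inv I A →+ absUr_inv I A := absUr_f hI φ
  let F : LurA 𝓝 I A → (absUr_inv I A ⧸ f.range) := fun x =>
    QuotientAddGroup.mk ⟨c x φ, fun _ hτ => coc_smul_eq hI (c x) (hc x) φ hτ⟩
  have hF : Function.Injective F := by
    intro x y hxy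
    obtain ⟨b, hb⟩ := (QuotientAddGroup.eq).1 hxy
    have hb' : φ • (b : A) - b = - c x φ + c y φ := congrArg Subtype.val hb
    let d : Coc 𝓝 A := ((c y).add (c x).neg).add (absUr_cob 𝓝 (b : A)).neg
    have hd : ∀ g, d g = c y g + - c x g + - (g • (b : A) - b) := fun _ => rfl
    have hd0 : ∀ g, d g = 0 := by
      refine coc_eq_zero hφ d (fun τ hτ => ?_) ?_
      · rw [hd, hc y τ hτ, hc x τ hτ, b.2 τ hτ]
        simp
      · rw [hd, hb']
        abel
    have hyx : (c y).cls = (c x).cls := by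
      rw [Coc.cls_eq_cls_iff]
      refine ⟨b, fun g => ?_⟩
      have := hd0 g
      rw [hd] at this
      rw [← sub_eq_zero, ← this]
      abel
    apply Subtype.ext
    rw [← hcls x, ← hcls y, hyx]
  have hfin : Finite (LurA 𝓝 I A) := Finite.of_injective F hF
  refine ⟨hfin, ?_⟩
  have h1 : Nat.card (LurA 𝓝 I A) ≤ Nat.card (absUr_inv I A ⧸ f.range) :=
    Nat.card_le_card_of_injective F hF
  have h2 : Nat.card (absUr_inv I A ⧸ f.range) = Nat.card f.ker := card_quot_range_eq_card_ker f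
  let E : f.ker → inv0 G A := fun b =>
    ⟨((b : absUr_inv I A) : A), smul_eq_of_dense hφ (b : absUr_inv I A).2
      (sub_eq_zero.1 (congrArg Subtype.val (show f (b : absUr_inv I A) = 0 from b.2)))⟩
  have hE : Function.Injective E := by
    intro b b' h
    have h' : ((b : absUr_inv I A) : A) = ((b' : absUr_inv I A) : A) :=
      congrArg (fun z : inv0 G A => (z : A)) h
    exact Subtype.ext (Subtype.ext h')
  have h3 : Nat.card f.ker ≤ Nat.card (inv0 G A) := Nat.card_le_card_of_injective E hE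
  have h4 : Nat.card (Hsm 𝓝 A 0) = Nat.card (inv0 G A) :=
    Nat.card_congr (Hsm.H0equiv (𝓝 := 𝓝) (A := A)).toEquiv
  rw [h4]
  exact (h1.trans h2.le).trans h3

end Fermat.Agent.S56.Loc
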