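/-
S56 / block LOC (task S56-LOC-K3).

* `exists_isDenseGen`   : there is a Frobenius element of the local Galois group, and it generates the
                          local group modulo inertia, topologically;
* `apply_mu_eq_of_dvd`  : `q ≡ 1 mod p` : the local Galois group at `q` fixes `μ_p`.
-/
import Fermat.Agent.S56.Loc.Defs
import Fermat.Agent.S55.Loc.Field.ArithFields
import Fermat.Agent.Lib.InertiaField.Frob

set_option autoImplicit false

namespace Fermat.Agent.S56.Loc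

open Fermat.Agent.S55

/-- There is a Frobenius element, and it generates the local group modulo inertia. -/
theorem exists_isDenseGen (q : Nat.Primes) :
    ∃ φ : Gv q, IsFrobLoc q φ ∧ IsDenseGen (lvlLoc q) (inertiaLoc q) φ :=
  ⟨(Fermat.Agent.S55.Loc.Field.localInput q).frob, Fermat.Agent.S55.Loc.Field.isFrobLoc_frob q,
    Fermat.Agent.S55.Loc.Field.dense_of_isFrobLoc (Fermat.Agent.S55.Loc.Field.isFrobLoc_frob q)⟩

/-- `q ≡ 1 mod p` : the local Galois group at `q` fixes `μ_p`. -/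
theorem apply_mu_eq_of_dvd {p : ℕ} (hp : p.Prime) (q : Nat.Primes) (h : p ∣ (q : ℕ) - 1)
    (g : Gv q) (ζ : Qb) (hζ : ζ ^ p = 1) : ιv q g ζ = ζ := by
  have hq2 : 2 ≤ (q : ℕ) := q.2.two_le
  have hqp : ¬ (q : ℕ) ∣ p := by
    intro hd
    have h1 : (q : ℕ) ≤ p := Nat.le_of_dvd hp.pos hd
    have h2 : p ≤ (q : ℕ) - 1 := Nat.le_of_dvd (by omega) h
    omega
  have hA := Fermat.Agent.S55.Loc.Field.plc_liesOverPrime q
  have hφ : (plc q).IsFrobeniusAt (ιv q (Fermat.Agent.S55.Loc.Field.localInput q).frob) (q : ℕ) :=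
    Fermat.Agent.S55.Loc.Field.isFrobLoc_frob q
  set φ : GQ := ιv q (Fermat.Agent.S55.Loc.Field.localInput q).frob with hφdef
  -- Frobenius fixes `ζ`
  have hφζ : φ ζ = ζ := by
    have h1 : φ ζ = ζ ^ (q : ℕ) :=
      Fermat.Agent.Lib.InertiaField.frob_apply_isTeich (plc q) (q : ℕ) q.2 hA hφ
        (Or.inr ⟨p, hqp, hζ⟩)
    obtain ⟨c, hc⟩ := h
    have h2 : (q : ℕ) = p * c + 1 := by omega
    rw [h1, h2, pow_succ, pow_mul, hζ, one_pow, one_mul]
  have hpow : ∀ i : ℕ, (φ ^ i) ζ = ζ := by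
    intro i
    induction i with
    | zero => rw [pow_zero]; rfl
    | succ i ih =>
      rw [pow_succ]
      show (φ ^ i) (φ ζ) = ζ
      rw [hφζ, ih]
  -- inertia fixes `ζ`
  have hK : ζ ∈ Fermat.Agent.Lib.InertiaField.K0 (plc q) :=
    Fermat.Agent.Lib.InertiaField.rootOfUnity_mem_K0 (plc q) (q : ℕ) q.2 hA hqp hζ
  -- the field `ℚ(ζ)`
  have hint : IsIntegral ℚ ζ := ((AlgebraicClosure.isAlgebraic ℚ).isAlgebraic ζ).isIntegral
  have hF : FiniteDimensional ℚ (IntermediateField.adjoin ℚ {ζ}) :=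
    IntermediateField.adjoin.finiteDimensional hint
  obtain ⟨i, τ, hτ, hν⟩ := Fermat.Agent.S55.Loc.Field.exists_pow_mul_of_frob hφ
    (IntermediateField.adjoin ℚ {ζ}) hF (Fermat.Agent.S55.Loc.Field.ιv_mem_Dq q g)
  have hτζ : τ ζ = ζ := (Fermat.Agent.Lib.InertiaField.mem_K0_iff (plc q) ζ).mp hK τ hτ
  have hνζ : ((φ ^ i * τ)⁻¹ * ιv q g) ζ = ζ :=
    hν ⟨ζ, IntermediateField.mem_adjoin_simple_self ℚ ζ⟩
  have e : ιv q g = (φ ^ i * τ) * ((φ ^ i * τ)⁻¹ * ιv q g) := by group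
  rw [e]
  show (φ ^ i) (τ (((φ ^ i * τ)⁻¹ * ιv q g) ζ)) = ζ
  rw [hνζ, hτζ, hpow]

end Fermat.Agent.S56.Loc
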