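/-
S56 / block LOC (task S56-LOC-K1): Kummer theory over the inertia field at `q ≠ p`.

A smooth homomorphism `f` from the inertia group at `q` to `ℤ/p` is `h ↦ j` with
`h a = ζ ^ j a` (Hilbert 90), `a ^ p` lies in the inertia field `K0`, so `a ^ p = q ^ k u` with a unit
`u`, whose `p`-th roots lie in `K0`; so `a = ξ π ^ k w` with `ξ, w ∈ K0`, and `f` kills everything
which fixes `π`.
-/
import Fermat.Agent.S56.Loc.Defs
import Fermat.Agent.S55.Arith.Hilbert90Core
import Fermat.Agent.Lib.InertiaField.Unram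
import Fermat.Agent.Lib.InertiaField.Hensel

set_option autoImplicit false

namespace Fermat.Agent.S56.Loc

open Fermat.Agent.S55

/-- **Kummer theory over the inertia field** (`q ≠ p`): a smooth homomorphism from (a group mapping
onto) the inertia group at `q` to `ℤ/p` kills everything which fixes a `p`-th root `π` of `q`. -/
theorem kummer_inertia {p q : ℕ} (hp : p.Prime) (hq : q.Prime) (hqp : q ≠ p)
    (A : ValuationSubring Qb) (hA : A.LiesOverPrime q) {π : Qb} (hπ : π ^ p = (q : Qb))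
    {H : Type} [Group H] (ι : H →* GQ) (hι : ∀ h, ι h ∈ A.inertiaSubgroupIn ℚ)
    (hsurj : ∀ τ ∈ A.inertiaSubgroupIn ℚ, ∃ h, ι h = τ)
    (f : H → ZMod p) (hadd : ∀ h h', f (h * h') = f h + f h')
    (hlev : ∃ N ∈ lvlAll.carrier, ∀ h, ι h ∈ N → f h = 0) :
    ∀ h, ι h π = π → f h = 0 := by
  have hpne : NeZero p := ⟨hp.ne_zero⟩
  have hpQ : NeZero (p : Qb) := ⟨Nat.cast_ne_zero.2 hp.ne_zero⟩
  have hqp' : ¬ q ∣ p := fun hd => hqp ((Nat.prime_dvd_prime_iff_eq hq hp).1 hd)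
  obtain ⟨ζ, hζ⟩ := HasEnoughRootsOfUnity.exists_primitiveRoot Qb p
  have hζ0 : ζ ≠ 0 := hζ.ne_zero hp.ne_zero
  have hfixK0 : ∀ x ∈ Lib.InertiaField.K0 A, ∀ h, ι h x = x := fun x hx h =>
    (Lib.InertiaField.mem_K0_iff A x).1 hx _ (hι h)
  have hζK : ζ ∈ Lib.InertiaField.K0 A :=
    Lib.InertiaField.rootOfUnity_mem_K0 A q hq hA hqp' hζ.pow_eq_one
  -- the crossed homomorphism
  obtain ⟨a, ha⟩ := hilbert90_crossed ι (fun h => Kx.mk0 (ζ ^ (f h).val) (pow_ne_zero _ hζ0))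
    (by
      intro h h'
      apply Kx.val_injective
      rw [Kx.val_add, Kx.val_smul, Kx.val_mk0, Kx.val_mk0, Kx.val_mk0, map_pow, hfixK0 ζ hζK,
        hadd, ZMod.val_add, ← pow_add, ← pow_eq_pow_mod _ hζ.pow_eq_one])
    (by
      obtain ⟨N, hN, hf⟩ := hlev
      refine ⟨N, hN, fun h n hn => ?_⟩
      simp only [hadd, hf n hn, add_zero])
  have hα0 : a.val ≠ 0 := Kx.val_ne_zero a
  have hact : ∀ h, ι h a.val = ζ ^ (f h).val * a.val := by
    intro h
    have h1 := congrArg Kx.val (ha h)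
    rw [Kx.val_mk0, Kx.val_sub, Kx.val_smul] at h1
    rw [h1, mul_assoc, inv_mul_cancel₀ hα0, mul_one]
  -- `a ^ p` lies in the inertia field
  have hapK : a.val ^ p ∈ Lib.InertiaField.K0 A := by
    rw [Lib.InertiaField.mem_K0_iff]
    intro τ hτ
    obtain ⟨h, rfl⟩ := hsurj τ hτ
    rw [map_pow, hact, mul_pow, ← pow_mul, mul_comm _ p, pow_mul, hζ.pow_eq_one, one_pow, one_mul]
  obtain ⟨k, u, huK, huA, huA', hu⟩ :=
    Lib.InertiaField.exists_zpow_mul_unit A q hq hA hapK (pow_ne_zero _ hα0)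
  obtain ⟨w, hw⟩ := IsAlgClosed.exists_pow_nat_eq u hp.pos
  have hwK : w ∈ Lib.InertiaField.K0 A :=
    Lib.InertiaField.mem_K0_of_pow_mem A q hq hA hqp' huK huA huA' hw
  have hq0 : (q : Qb) ≠ 0 := Nat.cast_ne_zero.2 hq.ne_zero
  have hπ0 : π ≠ 0 := by
    rintro rfl
    rw [zero_pow hp.ne_zero] at hπ
    exact hq0 hπ.symm
  have hu0 : u ≠ 0 := by
    rintro rfl
    rw [mul_zero] at hu
    exact pow_ne_zero _ hα0 hu
  have hw0 : w ≠ 0 := by
    rintro rfl
    rw [zero_pow hp.ne_zero] at hw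
    exact hu0 hw.symm
  have hden : π ^ k * w ≠ 0 := mul_ne_zero (zpow_ne_zero _ hπ0) hw0
  have hξ : (a.val / (π ^ k * w)) ^ p = 1 := by
    rw [div_pow, mul_pow, hw, ← zpow_natCast (π ^ k) p, ← zpow_mul, mul_comm k, zpow_mul,
      zpow_natCast, hπ, hu]
    exact div_self (mul_ne_zero (zpow_ne_zero _ hq0) hu0)
  have hξK : a.val / (π ^ k * w) ∈ Lib.InertiaField.K0 A :=
    Lib.InertiaField.rootOfUnity_mem_K0 A q hq hA hqp' hξ
  intro h hh
  have hfix : ι h a.val = a.val := by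
    have e : a.val = a.val / (π ^ k * w) * (π ^ k * w) := (div_mul_cancel₀ _ hden).symm
    rw [e, map_mul, hfixK0 _ hξK, map_mul, map_zpow₀, hh, hfixK0 _ hwK]
  rw [hact h] at hfix
  have h1 : ζ ^ (f h).val = 1 := mul_right_cancel₀ hα0 (hfix.trans (one_mul _).symm)
  have h2 : p ∣ (f h).val := hζ.dvd_of_pow_eq_one _ h1
  have h3 : (f h).val = 0 := Nat.eq_zero_of_dvd_of_lt h2 (ZMod.val_lt _)
  exact (ZMod.val_eq_zero _).1 h3

/-- The same for homomorphisms to an arbitrary abelian group killed by `p`. -/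
theorem kummer_inertia' {p q : ℕ} (hp : p.Prime) (hq : q.Prime) (hqp : q ≠ p)
    (A : ValuationSubring Qb) (hA : A.LiesOverPrime q) {π : Qb} (hπ : π ^ p = (q : Qb))
    {H : Type} [Group H] (ι : H →* GQ) (hι : ∀ h, ι h ∈ A.inertiaSubgroupIn ℚ)
    (hsurj : ∀ τ ∈ A.inertiaSubgroupIn ℚ, ∃ h, ι h = τ)
    {W : Type} [AddCommGroup W] (hW : ∀ w : W, p • w = 0)
    (f : H → W) (hadd : ∀ h h', f (h * h') = f h + f h')
    (hlev : ∃ N ∈ lvlAll.carrier, ∀ h, ι h ∈ N → f h = 0) :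
    ∀ h, ι h π = π → f h = 0 := by
  have : Fact p.Prime := ⟨hp⟩
  let inst : Module (ZMod p) W := AddCommGroup.zmodModule hW
  have hF : @Module.Free (ZMod p) W _ _ inst := Module.Free.of_divisionRing (ZMod p) W
  have hP : @Module.Projective (ZMod p) _ W _ inst :=
    @Module.Projective.of_free (ZMod p) _ W _ inst hF
  intro h hh
  refine (@Module.forall_dual_apply_eq_zero_iff W _ (ZMod p) _ inst hP (f h)).1 fun l => ?_
  have key : ∀ L : W →+ ZMod p, L (f h) = 0 := by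
    intro L
    refine kummer_inertia hp hq hqp A hA hπ ι hι hsurj (fun x => L (f x)) ?_ ?_ h hh
    · intro x y
      simp only [hadd, map_add]
    · obtain ⟨N, hN, hf⟩ := hlev
      exact ⟨N, hN, fun x hx => by simp only [hf x hx, map_zero]⟩
  exact key l.toAddMonoidHom

end Fermat.Agent.S56.Loc
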