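/-
S56 / block LOC : `Fermat/Agent/S56/Loc/KumTame.lean` (task S56-LOC-K2, proofs: helper264).
The inertia group at `q ≠ p` is tame; the conjugation action on the tame quotient is trivial when
`μ_p` is contained in the local field.
-/
import Fermat.Agent.S56.Loc.KumInertia
import Fermat.Agent.S55.Loc.Unr.UnitsLoc
import Fermat.Agent.Lib.InertiaField.Hensel

set_option autoImplicit false

namespace Fermat.Agent.S56.Loc

open Fermat.Agent.S55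

/-- The elements of the inertia group fixing `π`. -/
noncomputable def inertiaFix (q : Nat.Primes) (π : Qb) : Subgroup (Gv q) where
  carrier := {σ | σ ∈ inertiaLoc q ∧ ιv q σ π = π}
  one_mem' := ⟨(inertiaLoc q).one_mem, by rw [map_one]; rfl⟩
  mul_mem' := fun {a b} ha hb => ⟨(inertiaLoc q).mul_mem ha.1 hb.1, by
    rw [map_mul]
    change ιv q a (ιv q b π) = π
    rw [hb.2, ha.2]⟩
  inv_mem' := fun {a} ha => ⟨(inertiaLoc q).inv_mem ha.1, by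
    rw [map_inv]
    change (ιv q a).symm π = π
    rw [AlgEquiv.symm_apply_eq, ha.2]⟩

namespace KumTame

theorem not_dvd {p : ℕ} (hp : p.Prime) (q : Nat.Primes) (hqp : (q : ℕ) ≠ p) : ¬ (q : ℕ) ∣ p :=
  fun h => hqp ((Nat.prime_dvd_prime_iff_eq q.2 hp).1 h)

/-- the inertia group fixes the `p`-th roots of unity. -/
theorem inertia_fix_root {p : ℕ} (hp : p.Prime) (q : Nat.Primes) (hqp : (q : ℕ) ≠ p) {σ : Gv q}
    (hσ : σ ∈ inertiaLoc q) {ξ : Qb} (hξ : ξ ^ p = 1) : ιv q σ ξ = ξ :=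
  (Lib.InertiaField.mem_K0_iff (plc q) ξ).1
    (Lib.InertiaField.rootOfUnity_mem_K0 (plc q) (q : ℕ) q.2 (Loc.UnitsLocAux.plc_liesOver q)
      (not_dvd hp q hqp) hξ) (ιv q σ) hσ

theorem pi_ne_zero {p : ℕ} (q : Nat.Primes) {π : Qb} (hπ : π ^ p = ((q : ℕ) : Qb)) : π ≠ 0 := by
  rintro rfl
  by_cases hp : p = 0
  · subst hp
    rw [pow_zero] at hπ
    have : (q : ℕ) = 1 := by exact_mod_cast hπ.symm
    exact q.2.one_lt.ne' this
  · rw [zero_pow hp] at hπ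
    exact (Nat.cast_ne_zero.2 q.2.ne_zero) hπ.symm

theorem kap_pow {p : ℕ} (q : Nat.Primes) {π : Qb} (hπ : π ^ p = ((q : ℕ) : Qb)) (g : Gv q) :
    (ιv q g π / π) ^ p = 1 := by
  have h0 : π ^ p ≠ 0 := pow_ne_zero _ (pi_ne_zero q hπ)
  rw [div_pow, ← map_pow, hπ, map_natCast, div_self (hπ ▸ h0)]

theorem apply_pi (q : Nat.Primes) {π : Qb} (h0 : π ≠ 0) (g : Gv q) :
    ιv q g π = (ιv q g π / π) * π := by
  rw [div_mul_cancel₀ _ h0]

end KumTame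

open KumTame

/-- For `σ` in the inertia group at `q ≠ p` and `π ^ p = q`: `σ π = ξ π` with `ξ ^ p = 1`, and
`σ ↦ ξ` is multiplicative. -/
theorem inertia_kummer_mul {p : ℕ} (hp : p.Prime) (q : Nat.Primes) (hqp : (q : ℕ) ≠ p) {π : Qb}
    (hπ : π ^ p = ((q : ℕ) : Qb)) {σ τ : Gv q} (hσ : σ ∈ inertiaLoc q) (hτ : τ ∈ inertiaLoc q) :
    ιv q (σ * τ) π / π = (ιv q σ π / π) * (ιv q τ π / π) := by
  have _ := hτ
  have h0 : π ≠ 0 := pi_ne_zero q hπ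
  have h1 : ιv q (σ * τ) π = ιv q σ (ιv q τ π) := by rw [map_mul]; rfl
  rw [h1, apply_pi q h0 τ, map_mul, inertia_fix_root hp q hqp hσ (kap_pow q hπ τ),
    mul_div_cancel_right₀ _ h0]
  field_simp

namespace KumTame

theorem kap_one (q : Nat.Primes) {π : Qb} (h0 : π ≠ 0) : ιv q (1 : Gv q) π / π = 1 := by
  rw [map_one]
  exact div_self h0

theorem kap_pow_nat {p : ℕ} (hp : p.Prime) (q : Nat.Primes) (hqp : (q : ℕ) ≠ p) {π : Qb}
    (hπ : π ^ p = ((q : ℕ) : Qb)) {σ : Gv q} (hσ : σ ∈ inertiaLoc q) (j : ℕ) :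
    ιv q (σ ^ j) π / π = (ιv q σ π / π) ^ j := by
  induction j with
  | zero => rw [pow_zero, pow_zero, kap_one q (pi_ne_zero q hπ)]
  | succ j ih =>
    rw [pow_succ, inertia_kummer_mul hp q hqp hπ ((inertiaLoc q).pow_mem hσ j) hσ, ih, pow_succ]

theorem kap_inv {p : ℕ} (hp : p.Prime) (q : Nat.Primes) (hqp : (q : ℕ) ≠ p) {π : Qb}
    (hπ : π ^ p = ((q : ℕ) : Qb)) {σ : Gv q} (hσ : σ ∈ inertiaLoc q) :
    ιv q σ⁻¹ π / π = (ιv q σ π / π)⁻¹ := by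
  have h := inertia_kummer_mul hp q hqp hπ hσ ((inertiaLoc q).inv_mem hσ)
  rw [mul_inv_cancel, kap_one q (pi_ne_zero q hπ)] at h
  exact eq_inv_of_mul_eq_one_right h.symm

theorem mem_inertiaFix_iff (q : Nat.Primes) {π : Qb} (h0 : π ≠ 0) {σ : Gv q} :
    σ ∈ inertiaFix q π ↔ σ ∈ inertiaLoc q ∧ ιv q σ π / π = 1 := by
  constructor
  · rintro ⟨h1, h2⟩
    exact ⟨h1, by rw [h2, div_self h0]⟩
  · rintro ⟨h1, h2⟩
    exact ⟨h1, (div_eq_one_iff_eq h0).1 h2⟩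

theorem kill {p : ℕ} (hp : p.Prime) (q : Nat.Primes) (hqp : (q : ℕ) ≠ p) {π : Qb}
    (hπ : π ^ p = ((q : ℕ) : Qb)) (W : Type) [AddCommGroup W] (f : Gv q → W)
    (hW : ∀ w : W, p • w = 0) (hf : IsSmoothHomOn (lvlLoc q) (inertiaLoc q) f) :
    ∀ σ ∈ inertiaFix q π, f σ = 0 := by
  obtain ⟨hadd, N, hN, hkill⟩ := hf
  obtain ⟨N', hN', rfl⟩ := hN
  intro σ hσ
  exact kummer_inertia' hp q.2 hqp (plc q) (Loc.UnitsLocAux.plc_liesOver q) hπ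
    (H := inertiaLoc q) ((ιv q).comp (inertiaLoc q).subtype) (fun h => h.2)
    (fun s hs => by
      obtain ⟨τ, hτ, h⟩ := Loc.UnitsLocAux.exists_ιv_eq q hs
      exact ⟨⟨τ, hτ⟩, h⟩)
    hW (fun h => f h.1) (fun h h' => hadd h.1 h.2 h'.1 h'.2)
    ⟨N', hN', fun h hh => hkill h.1 hh h.2⟩ ⟨σ, hσ.1⟩ hσ.2

end KumTame

/-- **Tameness of the inertia group at `q ≠ p`.** -/
theorem exists_isTame {p : ℕ} (hp : p.Prime) (q : Nat.Primes) (hqp : (q : ℕ) ≠ p) {π : Qb}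
    (hπ : π ^ p = ((q : ℕ) : Qb)) :
    ∃ τ₀ : Gv q, IsTame (lvlLoc q) (inertiaLoc q) p (inertiaFix q π) τ₀ := by
  have h0 : π ≠ 0 := pi_ne_zero q hπ
  by_cases h : ∃ t₀ ∈ inertiaLoc q, ιv q t₀ π / π ≠ 1
  · obtain ⟨t₀, ht₀, hne⟩ := h
    have : Fact p.Prime := ⟨hp⟩
    have : NeZero p := ⟨hp.ne_zero⟩
    have hprim : IsPrimitiveRoot (ιv q t₀ π / π) p := by
      have h1 := IsPrimitiveRoot.orderOf (ιv q t₀ π / π)
      rwa [orderOf_eq_prime (kap_pow q hπ t₀) hne] at h1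
    refine ⟨t₀, fun σ hσ => hσ.1, ht₀, fun σ hσ => ?_, kill hp q hqp hπ⟩
    obtain ⟨j, -, hj⟩ := hprim.eq_pow_of_pow_eq_one (kap_pow q hπ σ)
    refine ⟨j, (t₀ ^ j)⁻¹ * σ, ?_, by rw [mul_inv_cancel_left]⟩
    have hm : t₀ ^ j ∈ inertiaLoc q := (inertiaLoc q).pow_mem ht₀ j
    refine (mem_inertiaFix_iff q h0).2 ⟨(inertiaLoc q).mul_mem ((inertiaLoc q).inv_mem hm) hσ, ?_⟩
    rw [inertia_kummer_mul hp q hqp hπ ((inertiaLoc q).inv_mem hm) hσ, kap_inv hp q hqp hπ hm,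
      kap_pow_nat hp q hqp hπ ht₀, hj]
    refine inv_mul_cancel₀ ?_
    intro hz
    have := kap_pow q hπ σ
    rw [hz, zero_pow hp.ne_zero] at this
    exact zero_ne_one this
  · push Not at h
    refine ⟨1, fun σ hσ => hσ.1, (inertiaLoc q).one_mem, fun σ hσ => ?_, kill hp q hqp hπ⟩
    exact ⟨0, σ, (mem_inertiaFix_iff q h0).2 ⟨hσ, h σ hσ⟩, by rw [pow_zero, one_mul]⟩

/-- If the local group fixes `μ_p`, it acts trivially on the tame quotient. -/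
theorem conj_mul_inv_mem_inertiaFix {p : ℕ} (hp : p.Prime) (q : Nat.Primes) (hqp : (q : ℕ) ≠ p)
    {π : Qb} (hπ : π ^ p = ((q : ℕ) : Qb))
    (hμ : ∀ (g : Gv q) (ζ : Qb), ζ ^ p = 1 → ιv q g ζ = ζ) (g : Gv q) {σ : Gv q}
    (hσ : σ ∈ inertiaLoc q) : g * σ * g⁻¹ * σ⁻¹ ∈ inertiaFix q π := by
  have h0 : π ≠ 0 := pi_ne_zero q hπ
  have hconj : g * σ * g⁻¹ ∈ inertiaLoc q := (Loc.inertiaLoc_normal q).conj_mem σ hσ g
  have hinv : σ⁻¹ ∈ inertiaLoc q := (inertiaLoc q).inv_mem hσ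
  refine (mem_inertiaFix_iff q h0).2 ⟨(inertiaLoc q).mul_mem hconj hinv, ?_⟩
  have key : ιv q (g * σ * g⁻¹) π / π = ιv q σ π / π := by
    have h1 : ιv q (g * σ * g⁻¹) π = ιv q g (ιv q σ (ιv q g⁻¹ π)) := by
      rw [map_mul, map_mul]; rfl
    have h2 : ιv q g (ιv q g⁻¹ π) = π := by
      have : ιv q (g * g⁻¹) π = ιv q g (ιv q g⁻¹ π) := by rw [map_mul]; rfl
      rw [← this, mul_inv_cancel, map_one]; rfl
    rw [h1]
    conv_lhs => rw [apply_pi q h0 g⁻¹, map_mul, hμ σ _ (kap_pow q hπ g⁻¹), apply_pi q h0 σ]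
    have h3 : ιv q g⁻¹ π / π * (ιv q σ π / π * π) = (ιv q σ π / π) * ιv q g⁻¹ π := by
      field_simp
    rw [h3, map_mul, hμ g _ (kap_pow q hπ σ), h2, mul_div_cancel_right₀ _ h0]
  rw [inertia_kummer_mul hp q hqp hπ hconj hinv, key, kap_inv hp q hqp hπ hσ]
  refine mul_inv_cancel₀ ?_
  intro hz
  have := kap_pow q hπ σ
  rw [hz, zero_pow hp.ne_zero] at this
  exact zero_ne_one this

end Fermat.Agent.S56.Loc
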