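/-
S56 / block LOC, task S56-LOC-M3: core of (U1), upper triangular form.
-/
import Mathlib

set_option autoImplicit false

namespace Fermat.Agent.S56.Loc

/-- **Core of (U1), upper triangular form.**  `Γ` = inertia, `s σ = [[1, b σ], [0, 1]]` not trivial,
`c` a trace zero cocycle for the adjoint action with `tr (c σ * s σ) = 0`; `Γ = ⋃ τ₀ ^ j Γ₁` and every
homomorphism `Γ → k` which is trivial on `Γ₀` (a subgroup on which `s = 1`, `c = 0`) kills `Γ₁`.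
Then `c` is a coboundary. -/
theorem unip_core_upper {k : Type} [Field k] (h2 : (2 : k) ≠ 0) {Γ : Type} [Group Γ]
    (s : Γ →* Matrix (Fin 2) (Fin 2) k) (b : Γ → k) (hs : ∀ σ, s σ = !![1, b σ; 0, 1])
    (hb : ∃ σ, b σ ≠ 0)
    (c : Γ → Matrix (Fin 2) (Fin 2) k) (hc : ∀ σ τ, c (σ * τ) = c σ + s σ * c τ * s σ⁻¹)
    (htr : ∀ σ, (c σ).trace = 0) (h3 : ∀ σ, (c σ * s σ).trace = 0)
    (Γ₁ Γ₀ : Subgroup Γ) (τ₀ : Γ) (hgen : ∀ σ, ∃ j : ℕ, ∃ σ₁ ∈ Γ₁, σ = τ₀ ^ j * σ₁)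
    (hΓ₀ : ∀ σ ∈ Γ₀, s σ = 1 ∧ c σ = 0)
    (hkill : ∀ f : Γ → k, (∀ σ τ, f (σ * τ) = f σ + f τ) → (∀ σ ∈ Γ₀, f σ = 0) →
      ∀ σ ∈ Γ₁, f σ = 0) :
    ∃ X : Matrix (Fin 2) (Fin 2) k, X.trace = 0 ∧ ∀ σ, c σ = s σ * X * s σ⁻¹ - X := by
  -- `b` is additive
  have hbadd : ∀ σ τ, b (σ * τ) = b σ + b τ := by
    intro σ τ
    have h := map_mul s σ τ
    rw [hs, hs, hs] at h
    have h01 := congrFun (congrFun h 0) 1
    simp at h01
    rw [h01]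
    ring
  have hb1 : b 1 = 0 := by
    have h := hbadd 1 1
    rw [mul_one] at h
    linear_combination -h
  have hbinv : ∀ σ, b σ⁻¹ = -b σ := by
    intro σ
    have h := hbadd σ σ⁻¹
    rw [mul_inv_cancel, hb1] at h
    linear_combination -h
  have hbΓ₀ : ∀ σ ∈ Γ₀, b σ = 0 := by
    intro σ hσ
    have h := (hΓ₀ σ hσ).1
    rw [hs] at h
    have h01 := congrFun (congrFun h 0) 1
    simpa using h01
  -- the entries of `c`
  have h11 : ∀ σ, c σ 1 1 = -c σ 0 0 := by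
    intro σ
    have h := htr σ
    rw [Matrix.trace_fin_two] at h
    linear_combination h
  have hceta : ∀ σ, c σ = !![c σ 0 0, c σ 0 1; c σ 1 0, -c σ 0 0] := by
    intro σ
    rw [← h11 σ]
    exact Matrix.eta_fin_two (c σ)
  have hrel : ∀ σ τ, c (σ * τ) = c σ +
      !![1, b σ; 0, 1] * !![c τ 0 0, c τ 0 1; c τ 1 0, -c τ 0 0] * !![1, -b σ; 0, 1] := by
    intro σ τ
    rw [hc σ τ, hs σ, hs σ⁻¹, hbinv σ, ← hceta τ]
  have hz : ∀ σ τ, c (σ * τ) 1 0 = c σ 1 0 + c τ 1 0 := by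
    intro σ τ
    have h := congrFun (congrFun (hrel σ τ) 1) 0
    simp at h
    exact h
  have hx : ∀ σ τ, c (σ * τ) 0 0 = c σ 0 0 + c τ 0 0 + b σ * c τ 1 0 := by
    intro σ τ
    have h := congrFun (congrFun (hrel σ τ) 0) 0
    simp at h
    rw [h]
    ring
  have hy : ∀ σ τ, c (σ * τ) 0 1 =
      c σ 0 1 + c τ 0 1 - 2 * b σ * c τ 0 0 - b σ ^ 2 * c τ 1 0 := by
    intro σ τ
    have h := congrFun (congrFun (hrel σ τ) 0) 1
    simp at h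
    rw [h]
    ring
  -- (1) `z = 0`
  have hzb : ∀ σ, c σ 1 0 * b σ = 0 := by
    intro σ
    have h := h3 σ
    rw [hs σ, hceta σ, Matrix.trace_fin_two] at h
    simp at h
    exact mul_eq_zero.2 h
  obtain ⟨σ', hσ'⟩ := hb
  have hzσ' : c σ' 1 0 = 0 := (mul_eq_zero.1 (hzb σ')).resolve_right hσ'
  have hz0 : ∀ σ, c σ 1 0 = 0 := by
    intro σ
    by_cases hbσ : b σ = 0
    · have h1 : b (σ * σ') ≠ 0 := by rw [hbadd, hbσ, zero_add]; exact hσ'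
      have h2 := (mul_eq_zero.1 (hzb (σ * σ'))).resolve_right h1
      rw [hz, hzσ', add_zero] at h2
      exact h2
    · exact (mul_eq_zero.1 (hzb σ)).resolve_right hbσ
  -- additive functions
  have hprop : ∀ f : Γ → k, (∀ σ τ, f (σ * τ) = f σ + f τ) → (∀ σ ∈ Γ₀, f σ = 0) →
      ∀ σ, ∃ j : ℕ, f σ = j * f τ₀ ∧ b σ = j * b τ₀ := by
    intro f hf hf0 σ
    have hpow : ∀ g : Γ → k, (∀ σ τ, g (σ * τ) = g σ + g τ) → ∀ j : ℕ, g (τ₀ ^ j) = j * g τ₀ := by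
      intro g hg j
      induction j with
      | zero =>
        have h := hg 1 1
        rw [mul_one] at h
        rw [pow_zero, Nat.cast_zero, zero_mul]
        linear_combination -h
      | succ j ih =>
        rw [pow_succ, hg, ih]
        push_cast
        ring
    obtain ⟨j, σ₁, hσ₁, rfl⟩ := hgen σ
    refine ⟨j, ?_, ?_⟩
    · rw [hf, hpow f hf, hkill f hf hf0 σ₁ hσ₁, add_zero]
    · rw [hbadd, hpow b hbadd, hkill b hbadd hbΓ₀ σ₁ hσ₁, add_zero]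
  have hbτ₀ : b τ₀ ≠ 0 := by
    intro h0
    obtain ⟨j, -, hj⟩ := hprop b hbadd hbΓ₀ σ'
    rw [h0, mul_zero] at hj
    exact hσ' hj
  have hlin : ∀ f : Γ → k, (∀ σ τ, f (σ * τ) = f σ + f τ) → (∀ σ ∈ Γ₀, f σ = 0) →
      ∀ σ, f σ = f τ₀ / b τ₀ * b σ := by
    intro f hf hf0 σ
    obtain ⟨j, h1, h2⟩ := hprop f hf hf0 σ
    rw [h1, h2]
    field_simp
  -- (2) `x = lam * b`
  have hxadd : ∀ σ τ, c (σ * τ) 0 0 = c σ 0 0 + c τ 0 0 := by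
    intro σ τ
    rw [hx, hz0 τ, mul_zero, add_zero]
  have hxΓ₀ : ∀ σ ∈ Γ₀, c σ 0 0 = 0 := by
    intro σ hσ
    rw [(hΓ₀ σ hσ).2]
    rfl
  set lam : k := c τ₀ 0 0 / b τ₀ with hlam
  have hxlam : ∀ σ, c σ 0 0 = lam * b σ := hlin (fun σ => c σ 0 0) hxadd hxΓ₀
  -- (3) `y + lam * b ^ 2 = mu * b`
  have hy'add : ∀ σ τ, c (σ * τ) 0 1 + lam * b (σ * τ) ^ 2 =
      (c σ 0 1 + lam * b σ ^ 2) + (c τ 0 1 + lam * b τ ^ 2) := by
    intro σ τ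
    rw [hy, hz0 τ, hxlam τ, hbadd]
    ring
  have hy'Γ₀ : ∀ σ ∈ Γ₀, c σ 0 1 + lam * b σ ^ 2 = 0 := by
    intro σ hσ
    rw [(hΓ₀ σ hσ).2, hbΓ₀ σ hσ]
    simp
  set mu : k := (c τ₀ 0 1 + lam * b τ₀ ^ 2) / b τ₀ with hmu
  have hymu : ∀ σ, c σ 0 1 + lam * b σ ^ 2 = mu * b σ :=
    hlin (fun σ => c σ 0 1 + lam * b σ ^ 2) hy'add hy'Γ₀
  -- (4)
  refine ⟨!![-mu / 2, 0; lam, mu / 2], ?_, ?_⟩
  · rw [Matrix.trace_fin_two]
    simp
    ring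
  · intro σ
    have hyσ : c σ 0 1 = mu * b σ - lam * b σ ^ 2 := by linear_combination hymu σ
    rw [hceta σ, hs σ, hs σ⁻¹, hbinv σ, hz0 σ, hxlam σ, hyσ]
    ext i j
    fin_cases i <;> fin_cases j <;>
      simp <;> field_simp <;> ring

end Fermat.Agent.S56.Loc
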