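/-
S56 / block LOC (architect helper295), task S56-LOC-M2 (helper123): a nontrivial group of `2 × 2`
matrices with trace `2` and determinant `1` is conjugate into the upper unitriangular group.
-/
import Mathlib

set_option autoImplicit false

namespace Fermat.Agent.S56.Loc

/-- a unipotent matrix `≠ 1` is conjugate to the standard one -/
theorem MatUpper.exists_conj_std {k : Type} [Field k] (u : Matrix (Fin 2) (Fin 2) k)
    (ht : u.trace = 2) (hd : u.det = 1) (hu : u ≠ 1) :
    ∃ P Q : Matrix (Fin 2) (Fin 2) k, P * Q = 1 ∧ Q * P = 1 ∧ Q * u * P = !![1, 1; 0, 1] := by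
  obtain ⟨p, q, r, t, rfl⟩ : ∃ p q r t : k, u = !![p, q; r, t] :=
    ⟨u 0 0, u 0 1, u 1 0, u 1 1, Matrix.eta_fin_two u⟩
  rw [Matrix.trace_fin_two_of] at ht
  rw [Matrix.det_fin_two_of] at hd
  have ht' : t = 2 - p := by linear_combination ht
  subst ht'
  by_cases hr : r = 0
  · subst hr
    have hp : p = 1 := by
      have h : (p - 1) ^ 2 = 0 := by linear_combination -hd
      have := pow_eq_zero_iff (two_ne_zero) |>.1 h
      linear_combination this
    subst hp
    have hq : q ≠ 0 := by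
      rintro rfl
      apply hu
      ext i j
      fin_cases i <;> fin_cases j <;> simp <;> norm_num
    refine ⟨!![q, 0; 0, 1], !![q⁻¹, 0; 0, 1], ?_, ?_, ?_⟩
    · ext i j
      fin_cases i <;> fin_cases j <;> simp [Matrix.mul_apply, Fin.sum_univ_two, hq]
    · ext i j
      fin_cases i <;> fin_cases j <;> simp [Matrix.mul_apply, Fin.sum_univ_two, hq]
    · ext i j
      fin_cases i <;> fin_cases j <;> simp [Matrix.mul_apply, Fin.sum_univ_two, hq] <;> norm_num
  · refine ⟨!![p - 1, 1; r, 0], !![0, r⁻¹; 1, -(p - 1) * r⁻¹], ?_, ?_, ?_⟩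
    · ext i j
      fin_cases i <;> fin_cases j <;> simp [Matrix.mul_apply, Fin.sum_univ_two, hr] <;> ring
    · ext i j
      fin_cases i <;> fin_cases j <;> simp [Matrix.mul_apply, Fin.sum_univ_two, hr]
    · ext i j
      fin_cases i <;> fin_cases j <;> simp [Matrix.mul_apply, Fin.sum_univ_two, hr] <;>
        field_simp
      · ring
      · linear_combination -hd

/-- a matrix of trace `2` and determinant `1` whose product with the standard unipotent matrix has
trace `2` is upper unitriangular -/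
theorem MatUpper.upper_of_trace {k : Type} [Field k] (w : Matrix (Fin 2) (Fin 2) k)
    (ht : w.trace = 2) (hd : w.det = 1) (ht' : (!![1, 1; 0, 1] * w).trace = 2) :
    ∃ b : k, w = !![1, b; 0, 1] := by
  obtain ⟨p, q, r, t, rfl⟩ : ∃ p q r t : k, w = !![p, q; r, t] :=
    ⟨w 0 0, w 0 1, w 1 0, w 1 1, Matrix.eta_fin_two w⟩
  rw [Matrix.trace_fin_two_of] at ht
  rw [Matrix.det_fin_two_of] at hd
  simp [Matrix.trace_fin_two] at ht'
  have hr : r = 0 := by linear_combination ht' - ht
  subst hr
  have hp : p = 1 := by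
    have h : (p - 1) ^ 2 = 0 := by linear_combination -hd + p * ht
    have := pow_eq_zero_iff (two_ne_zero) |>.1 h
    linear_combination this
  subst hp
  have ht1 : t = 1 := by linear_combination ht
  subst ht1
  exact ⟨q, rfl⟩

/-- A group of `2 × 2` matrices all of whose elements have trace `2` and determinant `1`, and which is not
trivial, can be conjugated into the upper unitriangular group. -/
theorem exists_conj_upper {k : Type} [Field k] {Γ : Type} [Group Γ]
    (s : Γ →* Matrix (Fin 2) (Fin 2) k) (h1 : ∀ σ, (s σ).trace = 2 ∧ (s σ).det = 1)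
    (h2 : ∃ σ, s σ ≠ 1) :
    ∃ P Q : Matrix (Fin 2) (Fin 2) k, P * Q = 1 ∧ Q * P = 1 ∧
      ∀ σ, ∃ b : k, Q * s σ * P = !![1, b; 0, 1] := by
  obtain ⟨σ₀, hσ₀⟩ := h2
  obtain ⟨P, Q, hPQ, hQP, hstd⟩ := MatUpper.exists_conj_std (s σ₀) (h1 σ₀).1 (h1 σ₀).2 hσ₀
  have htr : ∀ σ, (Q * s σ * P).trace = 2 := by
    intro σ
    rw [Matrix.trace_mul_cycle, hPQ, one_mul]
    exact (h1 σ).1
  refine ⟨P, Q, hPQ, hQP, fun σ => ?_⟩
  apply MatUpper.upper_of_trace _ (htr σ)
  · have hdet : Q.det * P.det = 1 := by rw [← Matrix.det_mul, hQP, Matrix.det_one]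
    rw [Matrix.det_mul, Matrix.det_mul, (h1 σ).2, mul_one, hdet]
  · have e : !![1, 1; 0, 1] * (Q * s σ * P) = Q * s (σ₀ * σ) * P := by
      rw [← hstd, map_mul]
      calc Q * s σ₀ * P * (Q * s σ * P) = Q * s σ₀ * (P * Q) * s σ * P := by noncomm_ring
        _ = Q * (s σ₀ * s σ) * P := by rw [hPQ]; noncomm_ring
    rw [e]
    exact htr _

end Fermat.Agent.S56.Loc
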