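/-
S56 / block LOC, task S56-LOC-M4: core of (U1), general form, by conjugation from
`exists_conj_upper` and `unip_core_upper`.
-/
import Fermat.Agent.S56.Loc.MatUpper
import Fermat.Agent.S56.Loc.MatCore

set_option autoImplicit false

namespace Fermat.Agent.S56.Loc

/-- **Core of (U1).** -/
theorem unip_core {k : Type} [Field k] (h2 : (2 : k) ≠ 0) {Γ : Type} [Group Γ]
    (s : Γ →* Matrix (Fin 2) (Fin 2) k) (h1 : ∀ σ, (s σ).trace = 2 ∧ (s σ).det = 1)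
    (hne : ∃ σ, s σ ≠ 1)
    (c : Γ → Matrix (Fin 2) (Fin 2) k) (hc : ∀ σ τ, c (σ * τ) = c σ + s σ * c τ * s σ⁻¹)
    (htr : ∀ σ, (c σ).trace = 0) (h3 : ∀ σ, (c σ * s σ).trace = 0)
    (Γ₁ Γ₀ : Subgroup Γ) (τ₀ : Γ) (hgen : ∀ σ, ∃ j : ℕ, ∃ σ₁ ∈ Γ₁, σ = τ₀ ^ j * σ₁)
    (hΓ₀ : ∀ σ ∈ Γ₀, s σ = 1 ∧ c σ = 0)
    (hkill : ∀ f : Γ → k, (∀ σ τ, f (σ * τ) = f σ + f τ) → (∀ σ ∈ Γ₀, f σ = 0) →
      ∀ σ ∈ Γ₁, f σ = 0) :
    ∃ X : Matrix (Fin 2) (Fin 2) k, X.trace = 0 ∧ ∀ σ, c σ = s σ * X * s σ⁻¹ - X := by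
  obtain ⟨P, Q, hPQ, hQP, hup⟩ := exists_conj_upper s h1 hne
  have hPQ' : ∀ A : Matrix (Fin 2) (Fin 2) k, P * (Q * A) = A := fun A => by
    rw [← mul_assoc, hPQ, one_mul]
  have hQP' : ∀ A : Matrix (Fin 2) (Fin 2) k, Q * (P * A) = A := fun A => by
    rw [← mul_assoc, hQP, one_mul]
  have htrace : ∀ A : Matrix (Fin 2) (Fin 2) k, (Q * A * P).trace = A.trace := fun A => by
    rw [Matrix.trace_mul_cycle, hPQ, one_mul]
  have htrace' : ∀ A : Matrix (Fin 2) (Fin 2) k, (P * A * Q).trace = A.trace := fun A => by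
    rw [Matrix.trace_mul_cycle, hQP, one_mul]
  let s' : Γ →* Matrix (Fin 2) (Fin 2) k :=
    { toFun := fun σ => Q * s σ * P
      map_one' := by rw [map_one, mul_one, hQP]
      map_mul' := fun σ τ => by
        rw [map_mul]
        simp only [mul_assoc, hPQ'] }
  have hs'def : ∀ σ, s' σ = Q * s σ * P := fun _ => rfl
  choose b hb using hup
  obtain ⟨X', hX'tr, hX'⟩ := unip_core_upper h2 s' b hb
    (by
      obtain ⟨σ, hσ⟩ := hne
      refine ⟨σ, fun h0 => hσ ?_⟩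
      have h4 : Q * s σ * P = 1 := by
        rw [hb σ, h0]
        exact Matrix.one_fin_two.symm
      calc s σ = P * (Q * s σ * P) * Q := by
            simp only [mul_assoc, hPQ', hPQ, mul_one]
        _ = 1 := by rw [h4, mul_one, hPQ])
    (fun σ => Q * c σ * P)
    (by
      intro σ τ
      rw [hc, hs'def, hs'def]
      simp only [mul_assoc, hPQ', mul_add, add_mul])
    (fun σ => by rw [htrace, htr])
    (fun σ => by
      have h4 : Q * c σ * P * s' σ = Q * (c σ * s σ) * P := by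
        rw [hs'def]
        simp only [mul_assoc, hPQ']
      rw [h4, htrace, h3])
    Γ₁ Γ₀ τ₀ hgen
    (fun σ hσ => by
      obtain ⟨h4, h5⟩ := hΓ₀ σ hσ
      exact ⟨by rw [hs'def, h4, mul_one, hQP], by rw [h5, mul_zero, zero_mul]⟩)
    hkill
  refine ⟨P * X' * Q, by rw [htrace', hX'tr], fun σ => ?_⟩
  have h4 := hX' σ
  rw [hs'def, hs'def] at h4
  calc c σ = P * (Q * c σ * P) * Q := by simp only [mul_assoc, hPQ', hPQ, mul_one]
    _ = P * (Q * s σ * P * X' * (Q * s σ⁻¹ * P) - X') * Q := by rw [h4]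
    _ = s σ * (P * X' * Q) * s σ⁻¹ - P * X' * Q := by
        simp only [mul_assoc, hPQ', hPQ, mul_one, mul_sub, sub_mul]

end Fermat.Agent.S56.Loc
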