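/-
S56 / block LOC, task S56-LOC-U1 (architect helper295; this file: helper127).
EXPORT (U1): a unipotent deformation at `q ∈ Smin` gives an unramified class.
To promote: move to `Fermat/Agent/S56/Loc/U1.lean` and replace the import of the stub `WIP.MatUnip` by
`Fermat.Agent.S56.Loc.MatUnip`.
-/
import Fermat.Agent.S56.Loc.KumTame
import Fermat.Agent.S56.Loc.MatUnip

set_option autoImplicit false

namespace Fermat.Agent.S56.Loc

open Fermat.Agent.S55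
open Fermat.Agent.S53 (M2)

namespace U1

variable {k : Type} [Field k] {r : GQ →* M2 k} {q : Nat.Primes}

/-- the matrix of an element of the restricted module -/
noncomputable def mt (x : ResMod (ιv q) (Ad0 r)) : M2 k := ((ResMod.toRes (ιv q)).symm x).mat

theorem mt_add (x y : ResMod (ιv q) (Ad0 r)) : mt (x + y) = mt x + mt y := rfl

theorem mt_sub (x y : ResMod (ιv q) (Ad0 r)) : mt (x - y) = mt x - mt y := rfl

theorem mt_zero : mt (0 : ResMod (ιv q) (Ad0 r)) = 0 := rfl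

theorem mt_smul (h : Gv q) (x : ResMod (ιv q) (Ad0 r)) :
    mt (h • x) = r (ιv q h) * mt x * r (ιv q h)⁻¹ := rfl

theorem mt_toRes (m : Ad0 r) : mt (ResMod.toRes (ιv q) m) = m.mat := rfl

theorem mt_inj {x y : ResMod (ιv q) (Ad0 r)} (h : mt x = mt y) : x = y :=
  (ResMod.toRes (ιv q)).symm.injective (Ad0.ext h)

/-- the coboundary of `a` -/
noncomputable def cob (hr : ∃ N ∈ lvlAll.carrier, ∀ n ∈ N, r n = 1) (a : ResMod (ιv q) (Ad0 r)) :
    Coc (lvlLoc q) (ResMod (ιv q) (Ad0 r)) where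
  toFun g := g • a - a
  map_mul' g h := by
    rw [mul_smul, smul_sub]
    abel
  level' := by
    obtain ⟨N, hN, h⟩ := hr
    refine ⟨N.comap (ιv q), ⟨N, hN, rfl⟩, fun g n hn => ?_⟩
    have hn' : ιv q n ∈ N := hn
    have e : n • a = a := by
      apply mt_inj
      rw [mt_smul, h _ hn', h _ (N.inv_mem hn'), one_mul, mul_one]
    rw [mul_smul, e]

theorem cob_apply (hr : ∃ N ∈ lvlAll.carrier, ∀ n ∈ N, r n = 1) (a : ResMod (ιv q) (Ad0 r))
    (g : Gv q) : cob hr a g = g • a - a := rfl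

theorem cob_cls (hr : ∃ N ∈ lvlAll.carrier, ∀ n ∈ N, r n = 1) (a : ResMod (ιv q) (Ad0 r)) :
    (cob hr a).cls = 0 :=
  (Coc.cls_eq_zero_iff _).2 ⟨a, fun _ => rfl⟩

end U1

open U1

/-- **EXPORT (U1)**, local form: `q ≠ p`, `ρ̄` unipotent and ramified on the inertia group at `q`, and
`tr (c τ * ρ̄ τ) = 0` on inertia (i.e. `(1 + ε c) ρ̄` is unipotent on inertia): the class of `c` is
unramified. -/
theorem cls_mem_Lur_of_unip {k : Type} [Field k] {p : ℕ} (hp : p.Prime) [CharP k p] (hp2 : p ≠ 2)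
    (r : GQ →* M2 k) (hr : ∃ N ∈ lvlAll.carrier, ∀ n ∈ N, r n = 1)
    (q : Nat.Primes) (hqp : (q : ℕ) ≠ p)
    (c : Coc (lvlLoc q) (ResMod (ιv q) (Ad0 r)))
    (h1 : ∀ τ ∈ inertiaLoc q, (r (ιv q τ)).trace = 2 ∧ (r (ιv q τ)).det = 1)
    (h2 : ∃ τ ∈ inertiaLoc q, r (ιv q τ) ≠ 1)
    (h3 : ∀ τ ∈ inertiaLoc q,
      (((ResMod.toRes (ιv q)).symm (c τ)).mat * r (ιv q τ)).trace = 0) :
    c.cls ∈ Lur q (Ad0 r) := by
  classical
  have h2k : (2 : k) ≠ 0 := by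
    intro h
    have h' : ((2 : ℕ) : k) = 0 := by exact_mod_cast h
    rw [CharP.cast_eq_zero_iff k p 2] at h'
    exact hp2 ((Nat.prime_dvd_prime_iff_eq hp Nat.prime_two).1 h')
  obtain ⟨π, hπ⟩ : ∃ π : Qb, π ^ p = ((q : ℕ) : Qb) := IsAlgClosed.exists_pow_nat_eq _ hp.pos
  obtain ⟨τ₀, T⟩ := exists_isTame hp q hqp hπ
  obtain ⟨N₁, hN₁, hrN⟩ := id hr
  obtain ⟨N₂, hN₂, hcN⟩ := c.level
  obtain ⟨N, hN, hle⟩ := (lvlLoc q).directed (N₁.comap (ιv q)) ⟨N₁, hN₁, rfl⟩ N₂ hN₂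
  obtain ⟨s, hs⟩ : ∃ s : ↥(inertiaLoc q) →* Matrix (Fin 2) (Fin 2) k, ∀ σ, s σ = r (ιv q σ) :=
    ⟨r.comp ((ιv q).comp (inertiaLoc q).subtype), fun _ => rfl⟩
  have hsinv : ∀ σ : ↥(inertiaLoc q), s σ⁻¹ = r (ιv q σ)⁻¹ := by
    intro σ
    rw [hs, Subgroup.coe_inv, map_inv]
  have hc0 : ∀ n ∈ N, c n = 0 := by
    intro n hn
    have := hcN 1 n (hle hn).2
    rwa [one_mul, c.map_one] at this
  obtain ⟨X, hX, hcX⟩ := unip_core h2k s (fun σ => by rw [hs]; exact h1 σ σ.2)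
    (by
      obtain ⟨τ, hτ, hne⟩ := h2
      exact ⟨⟨τ, hτ⟩, by rw [hs]; exact hne⟩)
    (fun σ => mt (c σ))
    (fun σ τ => by
      rw [hs, hsinv, Subgroup.coe_mul, c.map_mul, mt_add, mt_smul])
    (fun σ => Ad0.trace_mat _)
    (fun σ => by rw [hs]; exact h3 σ σ.2)
    ((inertiaFix q π).subgroupOf (inertiaLoc q)) (N.subgroupOf (inertiaLoc q)) ⟨τ₀, T.mem⟩
    (fun σ => by
      obtain ⟨j, σ₁, hσ₁, e⟩ := T.gen σ σ.2
      refine ⟨j, ⟨σ₁, T.le hσ₁⟩, Subgroup.mem_subgroupOf.2 hσ₁, Subtype.ext ?_⟩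
      rw [Subgroup.coe_mul, Subgroup.coe_pow]
      exact e)
    (fun σ hσ => by
      have hσN : (σ : Gv q) ∈ N := Subgroup.mem_subgroupOf.1 hσ
      refine ⟨by rw [hs]; exact hrN _ (hle hσN).1, ?_⟩
      show mt (c σ) = 0
      rw [hc0 _ hσN]
      rfl)
    (fun f hf hf0 σ hσ => by
      have hk := T.kill k (fun g => if h : g ∈ inertiaLoc q then f ⟨g, h⟩ else 0)
        (fun w => by rw [nsmul_eq_mul, CharP.cast_eq_zero, zero_mul])
        ⟨fun a ha b hb => by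
          beta_reduce
          rw [dif_pos ha, dif_pos hb, dif_pos ((inertiaLoc q).mul_mem ha hb), ← hf]
          rfl,
         N, hN, fun n hn hnI => by
          beta_reduce
          rw [dif_pos hnI]
          exact hf0 ⟨n, hnI⟩ (Subgroup.mem_subgroupOf.2 hn)⟩
        σ (Subgroup.mem_subgroupOf.1 hσ)
      beta_reduce at hk
      rw [dif_pos σ.2] at hk
      exact hk)
  show c.cls ∈ LurA (lvlLoc q) (inertiaLoc q) (ResMod (ιv q) (Ad0 r))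
  refine mem_LurA.2 ⟨c.add (cob hr (ResMod.toRes (ιv q) (Ad0.mk X hX))).neg, ?_, ?_⟩
  · rw [Coc.cls_add, Coc.cls_neg, cob_cls, neg_zero, add_zero]
  · intro τ hτ
    change c τ + -(τ • ResMod.toRes (ιv q) (Ad0.mk X hX) - ResMod.toRes (ιv q) (Ad0.mk X hX)) = 0
    have e : c τ = τ • ResMod.toRes (ιv q) (Ad0.mk X hX) - ResMod.toRes (ιv q) (Ad0.mk X hX) := by
      apply mt_inj
      rw [mt_sub, mt_smul, mt_toRes, Ad0.mat_mk]
      have := hcX ⟨τ, hτ⟩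
      rw [hs, hsinv] at this
      exact this
    rw [e, add_neg_cancel]

/-- **EXPORT (U1)**, global form. -/
theorem locS_cls_mem_Lur_of_unip {k : Type} [Field k] {p : ℕ} (hp : p.Prime) [CharP k p]
    (hp2 : p ≠ 2) (r : GQ →* M2 k) (hr : ∃ N ∈ lvlAll.carrier, ∀ n ∈ N, r n = 1)
    (q : Nat.Primes) (hqp : (q : ℕ) ≠ p) {S : Finset Nat.Primes} (c : Coc (lvlS S) (Ad0 r))
    (h1 : ∀ τ ∈ (plc q).inertiaSubgroupIn ℚ, (r τ).trace = 2 ∧ (r τ).det = 1)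
    (h2 : ∃ τ ∈ (plc q).inertiaSubgroupIn ℚ, r τ ≠ 1)
    (h3 : ∀ τ ∈ (plc q).inertiaSubgroupIn ℚ, ((c τ).mat * r τ).trace = 0) :
    locS S (Ad0 r) q 1 c.cls ∈ Lur q (Ad0 r) := by
  rw [Coc.locS_cls]
  apply cls_mem_Lur_of_unip hp hp2 r hr q hqp (c.loc q)
  · intro τ hτ
    exact h1 _ hτ
  · obtain ⟨τ, hτ, hne⟩ := h2
    obtain ⟨τ', hτ', e⟩ := Fermat.Agent.S55.Loc.UnitsLocAux.exists_ιv_eq q hτ
    exact ⟨τ', hτ', by rw [e]; exact hne⟩
  · intro τ hτ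
    exact h3 _ hτ

end Fermat.Agent.S56.Loc
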