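/-
S56 / block LOC, task S56-LOC-U2 (helper234): `#H^1_ur(ℚ_q, M) ≤ #H^0(ℚ_q, M)`.
-/
import Fermat.Agent.S56.Loc.AbsUr
import Fermat.Agent.S56.Loc.MuTriv
import Fermat.Agent.S55.Loc.Unr.UnitsLoc

set_option autoImplicit false

namespace Fermat.Agent.S56.Loc

open Fermat.Agent.S55

/-- **EXPORT (U2)** : `#H^1_ur(ℚ_q, M) ≤ #H^0(ℚ_q, M)`. -/
theorem card_Lur_le (q : Nat.Primes) (M : Type) [AddCommGroup M] [DistribMulAction GQ M] [Finite M]
    [Smooth lvlAll M] :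
    Finite (Lur q M) ∧ Nat.card (Lur q M) ≤ Nat.card (Hloc q M 0) := by
  obtain ⟨φ, -, hφ⟩ := exists_isDenseGen q
  have : Finite (ResMod (ιv q) M) := Finite.of_equiv M (ResMod.toRes (ιv q)).toEquiv
  exact card_LurA_le (A := ResMod (ιv q) M) (Fermat.Agent.S55.Loc.inertiaLoc_normal q) hφ

end Fermat.Agent.S56.Loc
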