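/-
S56 / block LOC (sub-architect helper295), task S56-LOC-A2: tame inertia acting trivially:
`#H^1 ≤ (#H^0)^2`.
-/
import Fermat.Agent.S56.Loc.AbsUr

set_option autoImplicit false

namespace Fermat.Agent.S56.Loc

open Fermat.Agent.S55

variable {G : Type} [Group G] {𝓝 : LevelSys G} {I : Subgroup G} {A : Type} [AddCommGroup A]
  [DistribMulAction G A] {p : ℕ} {I₁ : Subgroup G} {τ₀ : G}

/-- If `I` acts trivially on `A`, a cocycle is a smooth homomorphism on `I`. -/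
theorem coc_isSmoothHomOn (htriv : ∀ τ ∈ I, ∀ a : A, τ • a = a) (c : Coc 𝓝 A) :
    IsSmoothHomOn 𝓝 I c := by
  refine ⟨fun σ hσ τ _ => by rw [c.map_mul, htriv σ hσ], ?_⟩
  obtain ⟨N, hN, h⟩ := c.level
  refine ⟨N, hN, fun n hn _ => ?_⟩
  have h1 := h 1 n hn
  rwa [one_mul, c.map_one] at h1

theorem coc_eq_zero_on_of_tame (T : IsTame 𝓝 I p I₁ τ₀) (hp : ∀ a : A, p • a = 0)
    (htriv : ∀ τ ∈ I, ∀ a : A, τ • a = a) (c : Coc 𝓝 A) (h : c τ₀ = 0) :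
    ∀ τ ∈ I, c τ = 0 := by
  intro τ hτ
  obtain ⟨j, σ₁, hσ₁, rfl⟩ := T.gen τ hτ
  rw [c.map_mul, absUr_coc_pow c h, T.kill A c hp (coc_isSmoothHomOn htriv c) σ₁ hσ₁, smul_zero,
    add_zero]

theorem coc_tau_fixed (T : IsTame 𝓝 I p I₁ τ₀) (hp : ∀ a : A, p • a = 0)
    (htriv : ∀ τ ∈ I, ∀ a : A, τ • a = a)
    (hconj : ∀ g : G, ∀ σ ∈ I, g * σ * g⁻¹ * σ⁻¹ ∈ I₁) (c : Coc 𝓝 A) (g : G) :
    g • c τ₀ = c τ₀ := by
  have h0 : c g + g • c g⁻¹ = 0 := by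
    rw [← c.map_mul, mul_inv_cancel, c.map_one]
  have h1 : c (g * τ₀ * g⁻¹) = g • c τ₀ := by
    rw [mul_assoc, c.map_mul, c.map_mul, htriv τ₀ T.mem, smul_add]
    calc c g + (g • c τ₀ + g • c g⁻¹) = g • c τ₀ + (c g + g • c g⁻¹) := by abel
      _ = g • c τ₀ := by rw [h0, add_zero]
  have hs : g * τ₀ * g⁻¹ * τ₀⁻¹ ∈ I₁ := hconj g τ₀ T.mem
  have h2 : c (g * τ₀ * g⁻¹) = c τ₀ := by
    have e : g * τ₀ * g⁻¹ = (g * τ₀ * g⁻¹ * τ₀⁻¹) * τ₀ := by group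
    rw [e, c.map_mul, T.kill A c hp (coc_isSmoothHomOn htriv c) _ hs, htriv _ (T.le hs), zero_add]
  rw [← h1, h2]

/-- **(U3), abstract form**: `A` unramified, `G` acting trivially on the tame quotient of `I`:
`#H^1 ≤ (#H^0)^2`. -/
theorem card_H1_le_sq [Finite A] [Smooth 𝓝 A] (hI : I.Normal) {φ : G} (hφ : IsDenseGen 𝓝 I φ)
    (T : IsTame 𝓝 I p I₁ τ₀) (hp : ∀ a : A, p • a = 0) (htriv : ∀ τ ∈ I, ∀ a : A, τ • a = a)
    (hconj : ∀ g : G, ∀ σ ∈ I, g * σ * g⁻¹ * σ⁻¹ ∈ I₁) :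
    Finite (Hsm 𝓝 A 1) ∧ Nat.card (Hsm 𝓝 A 1) ≤ Nat.card (Hsm 𝓝 A 0) ^ 2 := by
  classical
  obtain ⟨hfinL, hcardL⟩ := card_LurA_le (𝓝 := 𝓝) (I := I) (A := A) hI hφ
  choose c hcls using Coc.exists_cls_eq (𝓝 := 𝓝) (A := A)
  -- evaluation at `τ₀`
  let ev : Hsm 𝓝 A 1 → A := fun x => c x τ₀
  have hmem : ∀ x y : Hsm 𝓝 A 1, ev x = ev y → x - y ∈ LurA 𝓝 I A := by
    intro x y hxy
    refine ⟨(c x).add (c y).neg, ?_, ?_⟩
    · rw [Coc.cls_add, Coc.cls_neg, hcls, hcls, sub_eq_add_neg]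
    · refine coc_eq_zero_on_of_tame T hp htriv _ ?_
      change c x τ₀ + - c y τ₀ = 0
      have h1 : c x τ₀ = c y τ₀ := hxy
      rw [h1, add_neg_cancel]
  have hs : ∀ x, ev (Function.invFun ev (ev x)) = ev x := fun x =>
    Function.invFun_eq ⟨x, rfl⟩
  let F : Hsm 𝓝 A 1 → LurA 𝓝 I A × inv0 G A := fun x =>
    (⟨x - Function.invFun ev (ev x), hmem _ _ (hs x).symm⟩,
      ⟨ev x, fun g => coc_tau_fixed T hp htriv hconj (c x) g⟩)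
  have hF : Function.Injective F := by
    intro x y hxy
    have h1 : ev x = ev y := congrArg (fun z : LurA 𝓝 I A × inv0 G A => (z.2 : A)) hxy
    have h2 : x - Function.invFun ev (ev x) = y - Function.invFun ev (ev y) :=
      congrArg (fun z : LurA 𝓝 I A × inv0 G A => (z.1 : Hsm 𝓝 A 1)) hxy
    rw [h1] at h2
    exact sub_left_injective h2
  have hfin : Finite (Hsm 𝓝 A 1) := Finite.of_injective F hF
  refine ⟨hfin, ?_⟩
  have h4 : Nat.card (Hsm 𝓝 A 0) = Nat.card (inv0 G A) :=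
    Nat.card_congr (Hsm.H0equiv (𝓝 := 𝓝) (A := A)).toEquiv
  calc Nat.card (Hsm 𝓝 A 1) ≤ Nat.card (LurA 𝓝 I A × inv0 G A) :=
        Nat.card_le_card_of_injective F hF
    _ = Nat.card (LurA 𝓝 I A) * Nat.card (inv0 G A) := Nat.card_prod _ _
    _ ≤ Nat.card (Hsm 𝓝 A 0) * Nat.card (Hsm 𝓝 A 0) := by
        rw [← h4]
        exact Nat.mul_le_mul_right _ hcardL
    _ = Nat.card (Hsm 𝓝 A 0) ^ 2 := (sq _).symm

end Fermat.Agent.S56.Loc
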