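/-
S56 / block LOC : `MatCentral` (task S56-LOC-M1, proofs helper196): the trace zero part of the centraliser of a
non scalar `2 × 2` matrix has at most `#k` elements; a matrix with two distinct eigenvalues is not scalar.
-/
import Mathlib

set_option autoImplicit false

namespace Fermat.Agent.S56.Loc

open Polynomial

private theorem MatCentral_eqs {k : Type} [Field k] (g m : Matrix (Fin 2) (Fin 2) k)
    (htr : m.trace = 0) (hc : g * m = m * g) :
    m 1 1 = - m 0 0 ∧ g 0 1 * m 1 0 = g 1 0 * m 0 1 ∧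
      (g 0 0 - g 1 1) * m 0 1 = 2 * g 0 1 * m 0 0 ∧
      2 * g 1 0 * m 0 0 = (g 0 0 - g 1 1) * m 1 0 := by
  rw [Matrix.trace_fin_two] at htr
  have h11 : m 1 1 = - m 0 0 := by linear_combination htr
  have e00 := congrFun (congrFun hc 0) 0
  have e01 := congrFun (congrFun hc 0) 1
  have e10 := congrFun (congrFun hc 1) 0
  simp only [Matrix.mul_apply, Fin.sum_univ_two] at e00 e01 e10
  rw [h11] at e01 e10
  exact ⟨h11, by linear_combination e00, by linear_combination e01, by linear_combination e10⟩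

private theorem MatCentral_eq_zero {k : Type} [Field k] (m : Matrix (Fin 2) (Fin 2) k)
    (h00 : m 0 0 = 0) (h01 : m 0 1 = 0) (h10 : m 1 0 = 0) (h11 : m 1 1 = 0) : m = 0 := by
  ext i j
  fin_cases i <;> fin_cases j <;> simp [h00, h01, h10, h11]

/-- The trace zero part of the centraliser of a non scalar `2 × 2` matrix has at most `#k` elements. -/
theorem card_centralizer_le {k : Type} [Field k] [Finite k] (h2 : (2 : k) ≠ 0)
    (g : Matrix (Fin 2) (Fin 2) k) (hg : ¬ ∃ a : k, g = Matrix.scalar (Fin 2) a) :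
    Nat.card {m : Matrix (Fin 2) (Fin 2) k // m.trace = 0 ∧ g * m = m * g} ≤ Nat.card k := by
  have key : ∀ i j : Fin 2,
      (∀ m : Matrix (Fin 2) (Fin 2) k, m.trace = 0 → g * m = m * g → m i j = 0 → m = 0) →
      Nat.card {m : Matrix (Fin 2) (Fin 2) k // m.trace = 0 ∧ g * m = m * g} ≤ Nat.card k := by
    intro i j hij
    apply Nat.card_le_card_of_injective
      (fun m : {m : Matrix (Fin 2) (Fin 2) k // m.trace = 0 ∧ g * m = m * g} => m.1 i j)
    intro m m' hmm
    apply Subtype.ext
    rw [← sub_eq_zero]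
    apply hij
    · rw [Matrix.trace_sub, m.2.1, m'.2.1, sub_zero]
    · rw [mul_sub, sub_mul, m.2.2, m'.2.2]
    · rw [Matrix.sub_apply]
      exact sub_eq_zero.2 hmm
  by_cases hb : g 0 1 = 0
  · by_cases hc : g 1 0 = 0
    · have had : g 0 0 - g 1 1 ≠ 0 := by
        intro had
        apply hg
        refine ⟨g 0 0, ?_⟩
        have had' : g 1 1 = g 0 0 := (sub_eq_zero.1 had).symm
        ext i j
        fin_cases i <;> fin_cases j <;> simp [hb, hc, had']
      refine key 0 0 fun m htr hcm h0 => ?_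
      obtain ⟨h11, -, e2, e3⟩ := MatCentral_eqs g m htr hcm
      rw [hb, h0] at e2
      rw [hc, h0] at e3
      have hy : m 0 1 = 0 := by
        have : (g 0 0 - g 1 1) * m 0 1 = 0 := by rw [e2]; ring
        exact (mul_eq_zero.1 this).resolve_left had
      have hz : m 1 0 = 0 := by
        have : (g 0 0 - g 1 1) * m 1 0 = 0 := by rw [← e3]; ring
        exact (mul_eq_zero.1 this).resolve_left had
      exact MatCentral_eq_zero m h0 hy hz (by rw [h11, h0, neg_zero])
    · refine key 1 0 fun m htr hcm h0 => ?_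
      obtain ⟨h11, e1, -, e3⟩ := MatCentral_eqs g m htr hcm
      rw [h0, mul_zero] at e1 e3
      have hx : m 0 0 = 0 :=
        (mul_eq_zero.1 e3).resolve_left (mul_ne_zero h2 hc)
      have hy : m 0 1 = 0 := (mul_eq_zero.1 e1.symm).resolve_left hc
      exact MatCentral_eq_zero m hx hy h0 (by rw [h11, hx, neg_zero])
  · refine key 0 1 fun m htr hcm h0 => ?_
    obtain ⟨h11, e1, e2, -⟩ := MatCentral_eqs g m htr hcm
    rw [h0, mul_zero] at e1 e2
    have hx : m 0 0 = 0 :=
      (mul_eq_zero.1 e2.symm).resolve_left (mul_ne_zero h2 hb)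
    have hz : m 1 0 = 0 := (mul_eq_zero.1 e1).resolve_left hb
    exact MatCentral_eq_zero m hx h0 hz (by rw [h11, hx, neg_zero])

/-- A matrix with two distinct eigenvalues is not scalar. -/
theorem not_scalar_of_charpoly {k : Type} [Field k] (g : Matrix (Fin 2) (Fin 2) k) {α β : k}
    (hαβ : α ≠ β) (h : g.charpoly = (X - C α) * (X - C β)) :
    ¬ ∃ a : k, g = Matrix.scalar (Fin 2) a := by
  rintro ⟨a, rfl⟩
  rw [Matrix.charpoly_fin_two] at h
  have h1 := congrArg (eval α) h
  have h2 := congrArg (eval β) h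
  simp at h1 h2
  have e1 : (α - a) ^ 2 = 0 := by linear_combination h1
  have e2 : (β - a) ^ 2 = 0 := by linear_combination h2
  have f1 : α = a := sub_eq_zero.1 (pow_eq_zero_iff (two_ne_zero) |>.1 e1)
  have f2 : β = a := sub_eq_zero.1 (pow_eq_zero_iff (two_ne_zero) |>.1 e2)
  exact hαβ (f1.trans f2.symm)

end Fermat.Agent.S56.Loc
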