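/-
S56 / block LOC (task S56-LOC-U3, helper131).

* `card_H1_le_sq_of_unram` : `q ≡ 1 mod p`, `M` finite, killed by `p`, unramified at `q` :
                             `#H^1(ℚ_q, M) ≤ (#H^0(ℚ_q, M))^2`;
* `card_H0_ad0_le`         : `#H^0(ℚ_q, ad⁰) ≤ #k` if some local element acts by a non scalar matrix;
* `card_H1_tw_le`          : EXPORT (U3).
-/
import Fermat.Agent.S56.Loc.AbsTame
import Fermat.Agent.S56.Loc.KumTame
import Fermat.Agent.S56.Loc.MuTriv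
import Fermat.Agent.S56.Loc.MatCentral

set_option autoImplicit false

namespace Fermat.Agent.S56.Loc

open Fermat.Agent.S55
open Fermat.Agent.S53 (M2)

/-- (U3) for a general unramified module: `q ≡ 1 mod p`, `M` finite, killed by `p`, unramified at `q`. -/
theorem card_H1_le_sq_of_unram {p : ℕ} (hp : p.Prime) (q : Nat.Primes) (hq : p ∣ (q : ℕ) - 1)
    (M : Type) [AddCommGroup M] [DistribMulAction GQ M] [Finite M] [Smooth lvlAll M]
    (hpM : ∀ m : M, p • m = 0) (hur : ∀ τ ∈ inertiaLoc q, ∀ m : M, ιv q τ • m = m) :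
    Finite (Hloc q M 1) ∧ Nat.card (Hloc q M 1) ≤ Nat.card (Hloc q M 0) ^ 2 := by
  have hq2 : 2 ≤ (q : ℕ) := q.2.two_le
  have hqp : (q : ℕ) ≠ p := by
    intro h
    have h2 : p ≤ (q : ℕ) - 1 := Nat.le_of_dvd (by omega) hq
    omega
  obtain ⟨π, hπ⟩ := IsAlgClosed.exists_pow_nat_eq (((q : ℕ) : Qb)) hp.pos
  obtain ⟨τ₀, T⟩ := exists_isTame hp q hqp hπ
  obtain ⟨φ, -, hφ⟩ := exists_isDenseGen q
  have : Finite (ResMod (ιv q) M) := inferInstanceAs (Finite M)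
  have : Smooth (lvlLoc q) (ResMod (ιv q) M) := ResMod.instSmooth (ιv q) lvlAll
  exact card_H1_le_sq (Fermat.Agent.S55.Loc.inertiaLoc_normal q) hφ T (fun a => hpM a) (fun τ hτ a => hur τ hτ a)
    (fun g σ hσ => conj_mul_inv_mem_inertiaFix hp q hqp hπ (apply_mu_eq_of_dvd hp q hq) g hσ)

/-- `#H^0(ℚ_q, ad⁰) ≤ #k` if some element of the local group acts by a non scalar matrix. -/
theorem card_H0_ad0_le {k : Type} [Field k] [Finite k] (h2 : (2 : k) ≠ 0) (r : GQ →* M2 k)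
    (q : Nat.Primes) (hreg : ∃ g : Gv q, ¬ ∃ a : k, r (ιv q g) = Matrix.scalar (Fin 2) a) :
    Nat.card (Hloc q (Ad0 r) 0) ≤ Nat.card k := by
  obtain ⟨g, hg⟩ := hreg
  refine le_trans ?_ (card_centralizer_le h2 (r (ιv q g)) hg)
  -- the matrix of an invariant element
  let μ : Hloc q (Ad0 r) 0 → Ad0 r := fun x =>
    (ResMod.toRes (ιv q)).symm
      ((Hsm.H0equiv (𝓝 := lvlLoc q) (A := ResMod (ιv q) (Ad0 r)) x : inv0 (Gv q) _) :
        ResMod (ιv q) (Ad0 r))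
  have hμinj : Function.Injective μ := by
    intro x y hxy
    apply (Hsm.H0equiv (𝓝 := lvlLoc q) (A := ResMod (ιv q) (Ad0 r))).injective
    apply Subtype.ext
    exact (ResMod.toRes (ιv q)).symm.injective hxy
  have hμfix : ∀ x, ιv q g • μ x = μ x := fun x =>
    (Hsm.H0equiv (𝓝 := lvlLoc q) (A := ResMod (ιv q) (Ad0 r)) x).2 g
  have hcomm : ∀ x, r (ιv q g) * (μ x).mat = (μ x).mat * r (ιv q g) := by
    intro x
    have h1 : r (ιv q g) * (μ x).mat * r (ιv q g)⁻¹ = (μ x).mat := by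
      rw [← Ad0.mat_smul, hμfix]
    calc r (ιv q g) * (μ x).mat
        = r (ιv q g) * (μ x).mat * (r (ιv q g)⁻¹ * r (ιv q g)) := by
          rw [Ad0.inv_mul_self, mul_one]
      _ = (r (ιv q g) * (μ x).mat * r (ιv q g)⁻¹) * r (ιv q g) := by rw [mul_assoc, mul_assoc,
          mul_assoc]
      _ = (μ x).mat * r (ιv q g) := by rw [h1]
  refine Nat.card_le_card_of_injective
    (fun x => (⟨(μ x).mat, (μ x).trace_mat, hcomm x⟩ :
      {m : Matrix (Fin 2) (Fin 2) k // m.trace = 0 ∧ r (ιv q g) * m = m * r (ιv q g)})) ?_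
  intro x y hxy
  have h1 : (μ x).mat = (μ y).mat := congrArg
    (fun z : {m : Matrix (Fin 2) (Fin 2) k // m.trace = 0 ∧ r (ιv q g) * m = m * r (ιv q g)} =>
      z.1) hxy
  exact hμinj (Ad0.ext h1)

/-- **EXPORT (U3)** : at a Taylor–Wiles prime `#H^1(ℚ_q, ad⁰) ≤ #k · #H^0(ℚ_q, ad⁰)`. -/
theorem card_H1_tw_le {k : Type} [Field k] [Finite k] {p : ℕ} (hp : p.Prime) [CharP k p]
    (hp2 : p ≠ 2) (r : GQ →* M2 k) [Smooth lvlAll (Ad0 r)] (q : Nat.Primes)
    (hq : p ∣ (q : ℕ) - 1) (hur : ∀ τ ∈ inertiaLoc q, r (ιv q τ) = 1)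
    (hreg : ∃ g : Gv q, ¬ ∃ a : k, r (ιv q g) = Matrix.scalar (Fin 2) a) :
    Finite (Hloc q (Ad0 r) 1) ∧
      Nat.card (Hloc q (Ad0 r) 1) ≤ Nat.card k * Nat.card (Hloc q (Ad0 r) 0) := by
  have h2 : (2 : k) ≠ 0 := by
    intro h
    have h' : ((2 : ℕ) : k) = 0 := by exact_mod_cast h
    rw [CharP.cast_eq_zero_iff k p] at h'
    exact hp2 ((Nat.prime_dvd_prime_iff_eq hp Nat.prime_two).1 h')
  have hpM : ∀ m : Ad0 r, p • m = 0 := by
    intro m
    have hn : ∀ n : ℕ, (n • m).mat = n • m.mat := by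
      intro n
      induction n with
      | zero => rw [zero_nsmul, zero_nsmul, Ad0.mat_zero]
      | succ n ih => rw [succ_nsmul, succ_nsmul, Ad0.mat_add, ih]
    apply Ad0.ext
    rw [hn, Ad0.mat_zero]
    ext i j
    rw [Matrix.smul_apply, nsmul_eq_mul, CharP.cast_eq_zero, zero_mul, Matrix.zero_apply]
  have hur' : ∀ τ ∈ inertiaLoc q, ∀ m : Ad0 r, ιv q τ • m = m := by
    intro τ hτ m
    apply Ad0.ext
    rw [Ad0.mat_smul, ← map_inv (ιv q) τ, hur τ hτ, hur τ⁻¹ (inv_mem hτ), one_mul, mul_one]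
  obtain ⟨hfin, hle⟩ := card_H1_le_sq_of_unram hp q hq (Ad0 r) hpM hur'
  refine ⟨hfin, hle.trans ?_⟩
  rw [sq]
  exact Nat.mul_le_mul_right _ (card_H0_ad0_le h2 r q hreg)

end Fermat.Agent.S56.Loc
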