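/-
S56 / block LOC (architect helper295), task S56-LOC-U0: translation of the frozen condition
`IsUnipotentOnInertiaAt` for `(1 + ε c) s` into traces; ramification is tested at the place `plc q`.
-/
import Fermat.Agent.S56.Dict.Defs
import Fermat.Agent.S55.Loc.Unr.UnitsLoc
import Fermat.Agent.S55.Dict.Below
import Fermat.Agent.S55.Bridge.Fields

set_option autoImplicit false

namespace Fermat.Agent.S56.Loc

open Fermat.Agent.S55 IsLocalRing
open Fermat.Agent.S53 (M2 MatCont toAdic Gal Dk)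
open Fermat.Agent.S53.Tangent (Dk.mk Dk.mk_one Dk.mk_zero Dk.mk_add Dk.mk_mul Dk.mk_inj)
open Fermat.Agent.S55.Loc.UnitsLocAux (plc_liesOver)

/-- a `2 × 2` matrix with characteristic polynomial `(X - 1)²` has trace `2` and determinant `1`. -/
private theorem unipData_trace_det {B : Type} [CommRing B] [Nontrivial B] (M : M2 B)
    (h : M.charpoly = (Polynomial.X - 1) ^ 2) : M.trace = 2 ∧ M.det = 1 := by
  rw [Matrix.charpoly_fin_two] at h
  have e : ((Polynomial.X - 1) ^ 2 : Polynomial B) =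
      Polynomial.X ^ 2 - Polynomial.C 2 * Polynomial.X + Polynomial.C 1 := by
    rw [Polynomial.C_1, show (Polynomial.C (2 : B)) = 2 from rfl]
    ring
  rw [e] at h
  have h1 := congrArg (fun P => Polynomial.coeff P 1) h
  have h0 := congrArg (fun P => Polynomial.coeff P 0) h
  simp only [Polynomial.coeff_add, Polynomial.coeff_sub, Polynomial.coeff_X_pow,
    Polynomial.coeff_C_mul, Polynomial.coeff_X_one, Polynomial.coeff_X_zero, Polynomial.coeff_C_zero,
    Polynomial.coeff_C_succ, mul_one, mul_zero] at h1 h0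
  norm_num at h1 h0
  exact ⟨h1, h0⟩

/-- Translation of the frozen condition `IsUnipotentOnInertiaAt` for `(1 + ε c) s` into traces. -/
theorem unip_data_of_isUnipotent {𝒪 : Type} [CommRing 𝒪] [IsLocalRing 𝒪]
    (s : Gal →* M2 (ResidueField 𝒪)) (c : Gal → M2 (ResidueField 𝒪))
    (R : Gal →* M2 (Dk 𝒪)) (hR : MatCont R) (hRc : ∀ g, R g = dmat (s g) (c g * s g))
    (q : Nat.Primes) (h : (toAdic R hR).IsUnipotentOnInertiaAt (q : ℕ)) :
    ∀ τ ∈ (plc q).inertiaSubgroupIn ℚ,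
      (s τ).trace = 2 ∧ (s τ).det = 1 ∧ (c τ * s τ).trace = 0 := by
  intro τ hτ
  have h1 : LinearMap.charpoly ((R τ).mulVecLin) = (Polynomial.X - 1) ^ 2 :=
    h (plc q) (plc_liesOver q) τ hτ
  rw [Matrix.charpoly_mulVecLin] at h1
  obtain ⟨ht, hd⟩ := unipData_trace_det _ h1
  rw [hRc τ] at ht hd
  have h2 : (2 : Dk 𝒪) = Dk.mk 2 0 := by
    rw [← one_add_one_eq_two, ← Dk.mk_one, Dk.mk_add, add_zero, one_add_one_eq_two]
  rw [Matrix.trace_fin_two, dmat_apply, dmat_apply, Dk.mk_add, h2] at ht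
  obtain ⟨ht1, ht2⟩ := Dk.mk_inj ht
  have hneg : ∀ a b : ResidueField 𝒪, -(Dk.mk a b : Dk 𝒪) = Dk.mk (-a) (-b) := by
    intro a b
    rw [neg_eq_iff_add_eq_zero, Dk.mk_add, add_neg_cancel, add_neg_cancel, Dk.mk_zero]
  rw [Matrix.det_fin_two, dmat_apply, dmat_apply, dmat_apply, dmat_apply, Dk.mk_mul, Dk.mk_mul,
    sub_eq_add_neg, hneg, Dk.mk_add, ← Dk.mk_one] at hd
  obtain ⟨hd1, -⟩ := Dk.mk_inj hd
  refine ⟨?_, ?_, ?_⟩
  · rw [Matrix.trace_fin_two]
    exact ht1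
  · rw [Matrix.det_fin_two, sub_eq_add_neg]
    exact hd1
  · rw [Matrix.trace_fin_two]
    exact ht2

/-- Ramification can be tested at the chosen place `plc q`. -/
theorem exists_inertia_plc_ne_one {X : Type} [Monoid X] (s : Gal →* X) (q : Nat.Primes)
    (h : ¬ ∀ P : ValuationSubring (AlgebraicClosure ℚ), P.LiesOverPrime (q : ℕ) →
      ∀ σ ∈ P.inertiaSubgroupIn ℚ, s σ = 1) :
    ∃ τ ∈ (plc q).inertiaSubgroupIn ℚ, s τ ≠ 1 := by
  push Not at h
  obtain ⟨P, hP, σ, hσ, hne⟩ := h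
  obtain ⟨g, hg⟩ := Dict.exists_smul_eq_of_liesOverPrime q.2 hP (plc_liesOver q)
  refine ⟨g * σ * g⁻¹, ?_, fun h1 => hne ?_⟩
  · rw [← hg]
    exact Bridge.conj_mem_inertiaSubgroupIn_smul P g σ hσ
  · have h2 : σ = g⁻¹ * (g * σ * g⁻¹) * g := by group
    rw [h2, map_mul, map_mul, h1, mul_one, ← map_mul, inv_mul_cancel, map_one]

/-- Unramifiedness at the chosen place `plc q`. -/
theorem inertiaLoc_eq_one_of_unram {X : Type} [Monoid X] (s : Gal →* X) (q : Nat.Primes)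
    (h : ∀ P : ValuationSubring (AlgebraicClosure ℚ), P.LiesOverPrime (q : ℕ) →
      ∀ σ ∈ P.inertiaSubgroupIn ℚ, s σ = 1) :
    ∀ τ ∈ inertiaLoc q, s (ιv q τ) = 1 :=
  fun τ hτ => h (plc q) (plc_liesOver q) _ (Subgroup.mem_comap.1 hτ)

end Fermat.Agent.S56.Loc
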