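/-
S56 / block LOC (helper295) : the two interface statements `LocMinStatement`, `LocTWStatement` of
`S56/Interface.lean` from the exports (U0)-(U3).  Final file of the block LOC.
-/
import Fermat.Agent.S56.Interface
import Fermat.Agent.S56.Loc.U1
import Fermat.Agent.S56.Loc.U2
import Fermat.Agent.S56.Loc.U3
import Fermat.Agent.S56.Loc.UnipData

set_option autoImplicit false

namespace Fermat.Agent.S56.Loc

open Fermat.Agent.S55 Fermat.Agent.S56 IsLocalRing
open Fermat.Agent.S53 (M2 MatCont toAdic Gal Dk)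

section

variable {k : Type} [Field k] {p : ℕ}

/-- A level of `lvlAll` on which `s` is trivial. -/
theorem exists_level_of_resHyp {s : Gal →* M2 k} (hs : ResHyp p s) :
    ∃ N ∈ lvlAll.carrier, ∀ n ∈ N, s n = 1 := by
  obtain ⟨L, hLfin, hL⟩ := hs.fin
  obtain ⟨F, hLF, hFfin, hFn⟩ := Bridge.exists_normal_finiteDimensional L hLfin
  have hst : IsStableField F := by
    intro g x hx
    have : IsAlgClosure ℚ (AlgebraicClosure ℚ) := ⟨inferInstance, AlgebraicClosure.isAlgebraic ℚ⟩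
    have : Normal ℚ (AlgebraicClosure ℚ) := IsAlgClosure.normal ℚ (AlgebraicClosure ℚ)
    have h1 := (IntermediateField.normal_iff_forall_map_le' (K := F)).1 hFn g
    exact h1 ⟨x, hx, rfl⟩
  refine ⟨F.fixingSubgroup, ⟨F, hFfin, hst, rfl⟩, fun n hn => ?_⟩
  exact hL n fun x hx => (IntermediateField.mem_fixingSubgroup_iff _ _).1 hn x (hLF hx)

theorem smooth_ad0_of_resHyp {s : Gal →* M2 k} (hs : ResHyp p s) : Smooth lvlAll (Ad0 s) := by
  obtain ⟨N, hN, h⟩ := exists_level_of_resHyp hs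
  refine ⟨fun a => ⟨N, hN, fun n hn => ?_⟩⟩
  have h1 : s n = 1 := h n hn
  have h2 : s n⁻¹ = 1 := by
    have h3 := Ad0.inv_mul_self (r := s) n
    rwa [h1, mul_one] at h3
  apply Ad0.ext
  rw [Ad0.mat_smul, h1, h2, one_mul, mul_one]

end

/-- **LOC (U1 + U2).** -/
theorem locMinStatement : LocMinStatement := by
  intro 𝒪 _ _ _ p _ _ hp2 s hs q hqp hram
  have hsm : Smooth lvlAll (Ad0 s) := smooth_ad0_of_resHyp hs
  obtain ⟨hfin, hcard⟩ := card_Lur_le q (Ad0 s)
  refine ⟨Lur q (Ad0 s), hfin, by rwa [one_mul], fun S c r hr hlift hP => ?_⟩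
  have hd := unip_data_of_isUnipotent s (fun g => (c g).mat) r hr hlift q hP
  exact locS_cls_mem_Lur_of_unip (Fact.out : p.Prime) hp2 s (exists_level_of_resHyp hs) q hqp c
    (fun τ hτ => ⟨(hd τ hτ).1, (hd τ hτ).2.1⟩) (exists_inertia_plc_ne_one s q hram)
    (fun τ hτ => (hd τ hτ).2.2)

/-- **LOC (U3).** -/
theorem locTWStatement : LocTWStatement := by
  intro k _ _ p _ _ hp2 s hs q hq hur hfrob
  have hsm : Smooth lvlAll (Ad0 s) := smooth_ad0_of_resHyp hs
  obtain ⟨φ, hφ, -⟩ := exists_isDenseGen q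
  obtain ⟨α, β, hαβ, hch⟩ := hfrob (plc q) (Loc.Field.plc_liesOverPrime q) (ιv q φ) hφ
  exact card_H1_tw_le (Fact.out : p.Prime) hp2 s q hq (inertiaLoc_eq_one_of_unram s q hur)
    ⟨φ, not_scalar_of_charpoly _ hαβ hch⟩

end Fermat.Agent.S56.Loc
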